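import Mathlib
import Fermat.Agent.S24.PointExp
import Fermat.Agent.S24.ConvLaurent
import Fermat.Agent.S24.Psi
import Fermat.Agent.GAL.Model

set_option autoImplicit false

/-!
# GAL-TORS foundation: the field `Mer` of meromorphic functions on the upper half plane

* `Holo` : the ring of holomorphic functions on `ℍ` (a domain), `Mer := FractionRing Holo`;
* `compGL g hg : Mer →+* Mer` : precomposition with `τ ↦ g • τ` (`g ∈ GL₂(ℝ)`, `det g > 0`);
  `compSL γ` for `γ ∈ SL₂(ℤ)`;
* `PsiC : convSubring →+* Holo` : a convergent Laurent series in `q` as a function of `τ`;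
* `MerQ` : the subfield of `ℂ((q))` of quotients of convergent series, `PsiQ : MerQ →+* Mer`;
* `PsiMer N : FF ℂ N →+* Mer` : realisation of the function field of `X₀(N)` over `ℂ`;
* `HasChar N m u χ` : `u` has an `m`-th root in `Mer` which transforms under `Γ₀(N)` by `χ`.
-/

noncomputable section

namespace Fermat.Agent.GAL.Tors

open UpperHalfPlane Complex ModularCurve CongruenceSubgroup
open Fermat.Agent.S24 Fermat.Agent.S24.PointExp
open scoped Manifold MatrixGroups

/-- Holomorphic functions on the upper half plane. -/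
abbrev Holo : Subring (ℍ → ℂ) := holo

instance instIsDomainHolo : IsDomain Holo :=
  Function.Injective.isDomain (expand UpperHalfPlane.I) (expand_injective UpperHalfPlane.I)

/-- Constant functions. -/
def holoC : ℂ →+* Holo where
  toFun c := ⟨fun _ => c, mdifferentiable_const⟩
  map_one' := rfl
  map_mul' _ _ := rfl
  map_zero' := rfl
  map_add' _ _ := rfl

instance instAlgebraHolo : Algebra ℂ Holo := holoC.toAlgebra

theorem algebraMap_holo_apply (c : ℂ) (τ : ℍ) : (algebraMap ℂ Holo c : ℍ → ℂ) τ = c := rfl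

/-- Meromorphic functions on the upper half plane (quotients of holomorphic functions). -/
abbrev Mer : Type := FractionRing Holo

/-- The inclusion of holomorphic functions. -/
abbrev ofHolo : Holo →+* Mer := algebraMap Holo Mer

theorem ofHolo_injective : Function.Injective ofHolo := IsFractionRing.injective Holo Mer

/-! ### Precomposition with Möbius transformations -/

/-- Precomposition with `τ ↦ g • τ` on holomorphic functions. -/
def holoComp (g : GL (Fin 2) ℝ) (hg : 0 < g.det.val) : Holo →+* Holo where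
  toFun f := ⟨fun τ => f.1 (g • τ), f.2.comp (mdifferentiable_smul hg)⟩
  map_one' := rfl
  map_mul' _ _ := rfl
  map_zero' := rfl
  map_add' _ _ := rfl

@[simp] theorem holoComp_apply (g : GL (Fin 2) ℝ) (hg : 0 < g.det.val) (f : Holo) (τ : ℍ) :
    (holoComp g hg f : ℍ → ℂ) τ = (f : ℍ → ℂ) (g • τ) := rfl

theorem holoComp_injective (g : GL (Fin 2) ℝ) (hg : 0 < g.det.val) :
    Function.Injective (holoComp g hg) := by
  intro f f' h
  ext τ
  have := congrFun (congrArg Subtype.val h) (g⁻¹ • τ)
  simpa using this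

/-- Precomposition with `τ ↦ g • τ` on meromorphic functions. -/
def compGL (g : GL (Fin 2) ℝ) (hg : 0 < g.det.val) : Mer →+* Mer :=
  IsFractionRing.lift (g := ofHolo.comp (holoComp g hg))
    (ofHolo_injective.comp (holoComp_injective g hg))

@[simp] theorem compGL_ofHolo (g : GL (Fin 2) ℝ) (hg : 0 < g.det.val) (f : Holo) :
    compGL g hg (ofHolo f) = ofHolo (holoComp g hg f) :=
  IsFractionRing.lift_algebraMap _ f

theorem compGL_algebraMap (g : GL (Fin 2) ℝ) (hg : 0 < g.det.val) (c : ℂ) :
    compGL g hg (algebraMap ℂ Mer c) = algebraMap ℂ Mer c := by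
  rw [IsScalarTower.algebraMap_apply ℂ Holo Mer, compGL_ofHolo]
  rfl

/-- `(f ∘ g) ∘ g' = f ∘ (g g')`. -/
theorem compGL_compGL (g g' : GL (Fin 2) ℝ) (hg : 0 < g.det.val) (hg' : 0 < g'.det.val)
    (hgg' : 0 < (g * g').det.val) (x : Mer) :
    compGL g' hg' (compGL g hg x) = compGL (g * g') hgg' x := by
  have : (compGL g' hg').comp (compGL g hg) = compGL (g * g') hgg' := by
    apply IsFractionRing.ringHom_ext (A := Holo)
    intro f
    rw [RingHom.comp_apply, compGL_ofHolo, compGL_ofHolo, compGL_ofHolo]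
    congr 1
    ext τ
    simp [mul_smul]
  exact DFunLike.congr_fun this x

theorem det_mapGL_pos (γ : SL(2, ℤ)) : 0 < ((γ : GL (Fin 2) ℝ)).det.val := by simp

/-- Precomposition with `τ ↦ γ • τ`, `γ ∈ SL₂(ℤ)`. -/
def compSL (γ : SL(2, ℤ)) : Mer →+* Mer := compGL (γ : GL (Fin 2) ℝ) (det_mapGL_pos γ)

theorem compSL_ofHolo_apply (γ : SL(2, ℤ)) (f : Holo) :
    compSL γ (ofHolo f) = ofHolo (holoComp (γ : GL (Fin 2) ℝ) (det_mapGL_pos γ) f) :=
  compGL_ofHolo _ _ f

theorem compSL_mul (γ γ' : SL(2, ℤ)) (x : Mer) :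
    compSL (γ * γ') x = compSL γ' (compSL γ x) := by
  unfold compSL
  rw [compGL_compGL _ _ _ _ (by simp)]
  congr 1
  simp

theorem compSL_one (x : Mer) : compSL 1 x = x := by
  have : compSL 1 = RingHom.id Mer := by
    apply IsFractionRing.ringHom_ext (A := Holo)
    intro f
    rw [compSL_ofHolo_apply, RingHom.id_apply]
    congr 1
    ext τ
    simp
  exact DFunLike.congr_fun this x

/-! ### Convergent `q`-series -/

/-- A Laurent series converging on the punctured unit disc, as a holomorphic function of `τ`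
(`q = exp (2 π i τ)`). -/
def PsiC : convSubring →+* Holo where
  toFun x := ⟨fun τ => evalAt (Function.Periodic.qParam 1 (τ : ℂ)) (x : LaurentSeries ℂ), by
    show MDiff fun τ : ℍ => evalAt (Function.Periodic.qParam 1 (τ : ℂ)) (x : LaurentSeries ℂ)
    rw [UpperHalfPlane.mdifferentiable_iff]
    have h1 : DifferentiableOn ℂ
        ((fun q => evalAt q (x : LaurentSeries ℂ)) ∘ (Function.Periodic.qParam 1))
        {z | 0 < z.im} := by
      refine (IsConv.differentiableOn x.2).comp (by
        intro z _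
        exact (Function.Periodic.differentiable_qParam z).differentiableWithinAt) ?_
      intro z hz
      refine ⟨?_, Function.Periodic.qParam_ne_zero _⟩
      simpa using Function.Periodic.norm_qParam_lt_one one_pos hz
    refine h1.congr fun z hz => ?_
    simp only [Function.comp_apply, ofComplex_apply_of_im_pos hz]⟩
  map_one' := by
    ext τ
    exact evalAt_one _
  map_mul' x y := by
    ext τ
    exact evalAt_mul x.2 y.2 (qParam_ne_zero' τ) (norm_qParam_lt_one' τ)
  map_zero' := by
    ext τ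
    exact evalAt_zero _
  map_add' x y := by
    ext τ
    exact evalAt_add x.2 y.2 (qParam_ne_zero' τ) (norm_qParam_lt_one' τ)

theorem PsiC_apply (x : convSubring) (τ : ℍ) :
    (PsiC x : ℍ → ℂ) τ = evalAt (Function.Periodic.qParam 1 (τ : ℂ)) (x : LaurentSeries ℂ) := rfl

theorem PsiC_injective : Function.Injective PsiC := by
  intro x y h
  apply Subtype.ext
  refine eq_of_evalAt_eq x.2 y.2 fun q hq hq1 => ?_
  obtain ⟨τ, rfl⟩ := exists_qParam_eq hq hq1
  exact congrFun (congrArg Subtype.val h) τ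

/-- Quotients of convergent Laurent series, a subfield of `ℂ((q))`. -/
def MerQ : IntermediateField ℂ (LaurentSeries ℂ) where
  carrier := {x | ∃ a b : LaurentSeries ℂ, IsConv a ∧ IsConv b ∧ b ≠ 0 ∧ x * b = a}
  mul_mem' := by
    rintro x y ⟨a, b, ha, hb, hb0, h⟩ ⟨a', b', ha', hb', hb0', h'⟩
    exact ⟨a * a', b * b', ha.mul ha', hb.mul hb', mul_ne_zero hb0 hb0', by rw [← h, ← h']; ring⟩
  add_mem' := by
    rintro x y ⟨a, b, ha, hb, hb0, h⟩ ⟨a', b', ha', hb', hb0', h'⟩
    exact ⟨a * b' + a' * b, b * b', (ha.mul hb').add (ha'.mul hb), hb.mul hb',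
      mul_ne_zero hb0 hb0', by rw [← h, ← h']; ring⟩
  algebraMap_mem' c := ⟨_, 1, isConv_algebraMap c, isConv_one, one_ne_zero, mul_one _⟩
  inv_mem' := by
    rintro x ⟨a, b, ha, hb, hb0, h⟩
    by_cases hx : x = 0
    · exact ⟨0, 1, isConv_zero, isConv_one, one_ne_zero, by simp [hx]⟩
    · refine ⟨b, a, hb, ha, ?_, ?_⟩
      · rw [← h]; exact mul_ne_zero hx hb0
      · rw [← h, ← mul_assoc, inv_mul_cancel₀ hx, one_mul]

theorem mem_MerQ {x : LaurentSeries ℂ} :
    x ∈ MerQ ↔ ∃ a b : LaurentSeries ℂ, IsConv a ∧ IsConv b ∧ b ≠ 0 ∧ x * b = a := Iff.rfl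

theorem mem_MerQ_of_isConv {x : LaurentSeries ℂ} (hx : IsConv x) : x ∈ MerQ :=
  ⟨x, 1, hx, isConv_one, one_ne_zero, mul_one _⟩

/-- The inclusion of convergent series in `MerQ`. -/
def convToMerQ : convSubring →+* MerQ where
  toFun x := ⟨x, mem_MerQ_of_isConv x.2⟩
  map_one' := rfl
  map_mul' _ _ := rfl
  map_zero' := rfl
  map_add' _ _ := rfl

instance instAlgebraConvMerQ : Algebra convSubring MerQ := convToMerQ.toAlgebra

theorem coe_algebraMap_convMerQ (x : convSubring) :
    ((algebraMap convSubring MerQ x : MerQ) : LaurentSeries ℂ) = x := rfl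

instance instIsFractionRingMerQ : IsFractionRing convSubring MerQ := by
  haveI : FaithfulSMul convSubring MerQ := by
    rw [faithfulSMul_iff_algebraMap_injective]
    intro x y h
    exact Subtype.ext (congrArg (fun z : MerQ => (z : LaurentSeries ℂ)) h)
  refine IsFractionRing.of_field convSubring MerQ ?_
  rintro ⟨x, a, b, ha, hb, hb0, h⟩
  refine ⟨⟨a, ha⟩, ⟨b, hb⟩, ?_⟩
  apply Subtype.ext
  show x = a / b
  rw [eq_div_iff hb0, h]

/-- The realisation of `MerQ` by meromorphic functions on `ℍ`. -/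
def PsiQ : MerQ →+* Mer :=
  IsFractionRing.lift (A := convSubring) (g := ofHolo.comp PsiC)
    (ofHolo_injective.comp PsiC_injective)

theorem PsiQ_conv (x : convSubring) : PsiQ (algebraMap convSubring MerQ x) = ofHolo (PsiC x) :=
  IsFractionRing.lift_algebraMap _ x

theorem PsiQ_injective : Function.Injective PsiQ := PsiQ.injective

theorem PsiQ_algebraMap (c : ℂ) : PsiQ (algebraMap ℂ MerQ c) = algebraMap ℂ Mer c := by
  have h1 : algebraMap ℂ MerQ c = algebraMap convSubring MerQ
      ⟨algebraMap ℂ (LaurentSeries ℂ) c, isConv_algebraMap c⟩ := rfl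
  rw [h1, PsiQ_conv, IsScalarTower.algebraMap_apply ℂ Holo Mer]
  congr 1
  ext τ
  rw [PsiC_apply, algebraMap_holo_apply]
  exact evalAt_algebraMap c _

/-! ### The function field of `X₀(N)` over `ℂ` -/

/-- The function field `ℂ(j(q^d) : d ∣ N)` consists of quotients of convergent series. -/
theorem FF_le_MerQ (N : ℕ) : FF ℂ N ≤ MerQ := by
  show IntermediateField.adjoin ℂ
    (⇑(coeffEmb ℂ) '' ((modularFunctionFieldFull N : IntermediateField ℚ (LaurentSeries ℚ)) :
      Set (LaurentSeries ℚ))) ≤ MerQ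
  rw [IntermediateField.adjoin_le_iff]
  rintro _ ⟨y, hy, rfl⟩
  have hy' : y ∈ IntermediateField.adjoin ℚ (divisorExpansions N) := hy
  clear hy
  show coeffEmb ℂ y ∈ MerQ
  induction hy' using IntermediateField.adjoin_induction with
  | mem x hx =>
    obtain ⟨d, hd, -, rfl⟩ := hx
    apply mem_MerQ_of_isConv
    have : coeffEmb ℂ (qExpand ℚ d jq) = qExpand ℂ d jqC := by
      rw [coeffEmb, jqC, ← coeffMap_qExpand]
    rw [this]
    exact isConv_jqC.qExpand d
  | algebraMap x =>
    have : coeffEmb ℂ (algebraMap ℚ (LaurentSeries ℚ) x)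
        = algebraMap ℂ (LaurentSeries ℂ) (algebraMap ℚ ℂ x) := by
      rw [algebraMap_apply_eq_single, algebraMap_laurentSeries_eq_single]
      ext k
      rw [coeffEmb_coeff, HahnSeries.coeff_single, HahnSeries.coeff_single]
      split_ifs <;> simp
    rw [this]
    exact MerQ.algebraMap_mem _
  | add x y _ _ hx hy => rw [map_add]; exact MerQ.add_mem hx hy
  | inv x _ hx => rw [map_inv₀]; exact MerQ.inv_mem hx
  | mul x y _ _ hx hy => rw [map_mul]; exact MerQ.mul_mem hx hy

/-- The realisation of the function field of `X₀(N)` over `ℂ` by meromorphic functions. -/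
def PsiMer (N : ℕ) : FF ℂ N →+* Mer :=
  PsiQ.comp (IntermediateField.inclusion (FF_le_MerQ N)).toRingHom

theorem PsiMer_injective (N : ℕ) : Function.Injective (PsiMer N) := (PsiMer N).injective

theorem PsiMer_eq (N : ℕ) (x : FF ℂ N) : PsiMer N x = PsiQ ⟨x, FF_le_MerQ N x.2⟩ := rfl

/-- `u` has an `m`-th root in `Mer` transforming under `Γ₀(N)` by the character `χ`. -/
def HasChar (N m : ℕ) (u : (FF ℂ N)ˣ) (χ : Gamma0 N →* rootsOfUnity m ℂ) : Prop :=
  ∃ h : Mer, h ^ m = PsiMer N (u : FF ℂ N) ∧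
    ∀ γ : Gamma0 N, compSL (γ : SL(2, ℤ)) h = algebraMap ℂ Mer (((χ γ : rootsOfUnity m ℂ) : ℂˣ) : ℂ) * h

/-- A character of `Γ₀(N)` is *non-hyperbolically trivial* if it kills all elliptic and parabolic
elements (and `± 1`). -/
def NeTrivial {N : ℕ} {A : Type*} [Monoid A] (χ : Gamma0 N →* A) : Prop :=
  ∀ γ : Gamma0 N, (((γ : SL(2, ℤ)) : Matrix (Fin 2) (Fin 2) ℤ)).trace ^ 2 ≤ 4 → χ γ = 1

end Fermat.Agent.GAL.Tors
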