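import Mathlib
import Fermat.Agent.GAL.Tors.Mer
import Fermat.Agent.GAL.Tors.Desc.BaseChange

set_option autoImplicit false

/-!
# GAL-TORS: base change `F_{ℚ̄}(N) → F_ℂ(N)` (definitions)
-/

noncomputable section

namespace Fermat.Agent.GAL.Tors

open ModularCurve Fermat.Agent.S24

variable (N : ℕ)

theorem coeffMap_iota_mem_FF {x : LaurentSeries Kbar} (hx : x ∈ FF Kbar N) :
    coeffMap iota x ∈ FF ℂ N :=
  Fermat.Agent.GAL.Desc.coeffMap_mem_baseChange iota hx

/-- Base change `F_{ℚ̄}(N) → F_ℂ(N)`, coefficientwise. -/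
def bcHom : FF Kbar N →+* FF ℂ N where
  toFun x := ⟨coeffMap iota (x : LaurentSeries Kbar), coeffMap_iota_mem_FF N x.2⟩
  map_one' := Subtype.ext (map_one (coeffMap iota))
  map_mul' _ _ := Subtype.ext (map_mul (coeffMap iota) _ _)
  map_zero' := Subtype.ext (map_zero (coeffMap iota))
  map_add' _ _ := Subtype.ext (map_add (coeffMap iota) _ _)

@[simp] theorem coe_bcHom (x : FF Kbar N) :
    ((bcHom N x : FF ℂ N) : LaurentSeries ℂ) = coeffMap iota (x : LaurentSeries Kbar) := rfl

theorem bcHom_eq_bc : bcHom N = Fermat.Agent.GAL.Desc.bc iota (modularFunctionFieldFull N) := rfl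

theorem bcHom_algebraMap (c : Kbar) :
    bcHom N (algebraMap Kbar (FF Kbar N) c) = algebraMap ℂ (FF ℂ N) (iota c) := by
  apply Subtype.ext
  exact coeffMap_iota_algebraMap c

/-- Base change on units. -/
abbrev bcUnits : (FF Kbar N)ˣ →* (FF ℂ N)ˣ := Units.map (bcHom N : FF Kbar N →* FF ℂ N)

end Fermat.Agent.GAL.Tors
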