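import Mathlib
import Fermat.Agent.S16.Lower.HeckePeriod
import Fermat.Agent.GAL.Tors.Mer
import Fermat.Agent.GAL.Betti
import Fermat.Prelude.Def_CuspForm_HeckeAlgebra

set_option autoImplicit false

/-!
# GAL-TORS, block BETTI: the period lattice, its Hecke matrices and its characters

`L = perLat N` (S16/Lower/Lattice) is a free `ℤ`-module of finite rank `r`, quotient of `Γ₀(N)`,
through which every homomorphism to a group of finite exponent killing the non-hyperbolic
elements factors.  The Hecke operator `t_ℓ` on `L` is the restriction of the dual of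
`CuspForm.heckeTLin 2`.  In the basis `b` of `L`: `bettiT ℓ = (matrix of t_ℓ)ᵀ`,
`bettiPer f = (b i f)_i`, `charOf m x γ = exp (2 π i (∑ n_i x_i) / m)` if `perPi γ = ∑ n_i b_i`.
-/

noncomputable section

namespace Fermat.Agent.GAL.Tors

open CongruenceSubgroup Fermat.Agent.S16.Lower Matrix.SpecialLinearGroup
open scoped MatrixGroups

open P2MW.S_ModularForm_heckeT_slash_eq_self_of_mem_Gamma0.ModularForm.HeckeSlashInvariance

variable (N : ℕ) [NeZero N]

/-- The rank of the period lattice (`= 2 g`). -/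
def bettiRank : ℕ := Module.finrank ℤ (perLat N)

/-- A basis of the period lattice. -/
def bettiBasis : Module.Basis (Fin (bettiRank N)) ℤ (perLat N) := Module.finBasis ℤ (perLat N)

/-- A *Hecke decomposition* of `γ ∈ Γ₀(N)` with respect to the standard representatives
`heckeRep ℓ x` (`x ∈ ℙ¹(𝔽_ℓ)`) of `T_ℓ`:  `α_x γ = γ'_x α_{σ x}`. -/
structure HeckeDecomp (ℓ : ℕ) (γ : Gamma0 N) where
  σ : Equiv.Perm (OnePoint (ZMod ℓ))
  γ' : OnePoint (ZMod ℓ) → Gamma0 N
  rel : ∀ x, heckeRep ℓ x * mapGL ℝ (γ : SL(2, ℤ)) = mapGL ℝ (γ' x : SL(2, ℤ)) * heckeRep ℓ (σ x)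

/-- (B2) Hecke decompositions exist (`Prelude … heckeRep_mul`). -/
theorem nonempty_heckeDecomp {ℓ : ℕ} (hℓ : ℓ.Prime) (hℓN : ¬ ℓ ∣ N) (γ : Gamma0 N) :
    Nonempty (HeckeDecomp N ℓ γ) := by
  have : Fact ℓ.Prime := ⟨hℓ⟩
  exact ⟨⟨MulAction.toPerm (redMatrix ℓ (γ : SL(2, ℤ))), GAL.transferElt N hℓN γ,
    GAL.transferElt_spec N hℓN γ⟩⟩

/-- The period lattice is stable under the dual Hecke operator. -/
theorem exists_heckeLat {ℓ : ℕ} (hℓ : ℓ.Prime) (hℓN : ¬ ℓ ∣ N) :
    ∃ t : perLat N →ₗ[ℤ] perLat N, ∀ (v : perLat N) (f : CuspForm (Gamma0 N) 2),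
      (t v : Module.Dual ℂ (CuspForm (Gamma0 N) 2)) f =
        (v : Module.Dual ℂ (CuspForm (Gamma0 N) 2)) (CuspForm.heckeTLin 2 hℓ hℓN f) :=
  ⟨(GAL.latT N ℓ).toIntLinearMap, fun v f => GAL.latT_apply N hℓ hℓN v f⟩

open Classical in
/-- The Hecke operator `t_ℓ` on the period lattice (`0` unless `ℓ` is a prime not dividing `N`). -/
def heckeLat (ℓ : ℕ) : perLat N →ₗ[ℤ] perLat N :=
  if h : ℓ.Prime ∧ ¬ ℓ ∣ N then (exists_heckeLat N h.1 h.2).choose else 0

theorem heckeLat_apply {ℓ : ℕ} (hℓ : ℓ.Prime) (hℓN : ¬ ℓ ∣ N) (v : perLat N)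
    (f : CuspForm (Gamma0 N) 2) :
    (heckeLat N ℓ v : Module.Dual ℂ (CuspForm (Gamma0 N) 2)) f =
      (v : Module.Dual ℂ (CuspForm (Gamma0 N) 2)) (CuspForm.heckeTLin 2 hℓ hℓN f) := by
  rw [heckeLat, dif_pos ⟨hℓ, hℓN⟩]
  exact (exists_heckeLat N hℓ hℓN).choose_spec v f

/-- The transfer formula. -/
theorem heckeLat_perPi {ℓ : ℕ} [NeZero ℓ] (hℓ : ℓ.Prime) (hℓN : ¬ ℓ ∣ N) (γ : Gamma0 N)
    (D : HeckeDecomp N ℓ γ) :
    heckeLat N ℓ (perPi N (Additive.ofMul γ)) = ∑ x, perPi N (Additive.ofMul (D.γ' x)) := by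
  apply Subtype.ext
  ext f
  rw [heckeLat_apply N hℓ hℓN, coe_perPi, perHom_apply, AddSubgroup.val_finsetSum,
    LinearMap.sum_apply]
  simp only [coe_perPi, perHom_apply]
  exact periodMap_hecke (heckeRep ℓ) (GAL.heckeRep_det_pos ℓ) f (CuspForm.heckeTLin 2 hℓ hℓN f)
    (by rw [CuspForm.coe_heckeTLin_apply]; exact heckeT_eq_sum_onePoint _ _) γ D.σ D.γ' D.rel

theorem heckeLat_of_not {ℓ : ℕ} (h : ¬ (ℓ.Prime ∧ ¬ ℓ ∣ N)) : heckeLat N ℓ = 0 := by
  rw [heckeLat, dif_neg h]

theorem heckeLat_comm (ℓ ℓ' : ℕ) :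
    heckeLat N ℓ ∘ₗ heckeLat N ℓ' = heckeLat N ℓ' ∘ₗ heckeLat N ℓ := by
  by_cases h : ℓ.Prime ∧ ¬ ℓ ∣ N
  · by_cases h' : ℓ'.Prime ∧ ¬ ℓ' ∣ N
    · ext v : 1
      apply Subtype.ext
      ext f
      rw [LinearMap.comp_apply, LinearMap.comp_apply, heckeLat_apply N h.1 h.2,
        heckeLat_apply N h'.1 h'.2, heckeLat_apply N h'.1 h'.2, heckeLat_apply N h.1 h.2]
      congr 1
      exact (LinearMap.congr_fun (CuspForm.heckeTLin_comm 2 h'.1 h'.2 h.1 h.2).eq f)
    · rw [heckeLat_of_not N h']; simp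
  · rw [heckeLat_of_not N h]; simp

/-- The integral Hecke matrices. -/
def bettiT (ℓ : ℕ) : Matrix (Fin (bettiRank N)) (Fin (bettiRank N)) ℤ :=
  (LinearMap.toMatrix (bettiBasis N) (bettiBasis N) (heckeLat N ℓ)).transpose

theorem bettiT_apply (ℓ : ℕ) (i j : Fin (bettiRank N)) :
    bettiT N ℓ i j = (bettiBasis N).repr (heckeLat N ℓ (bettiBasis N i)) j := by
  rw [bettiT, Matrix.transpose_apply, LinearMap.toMatrix_apply]

theorem heckeLat_bettiBasis (ℓ : ℕ) (i : Fin (bettiRank N)) :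
    heckeLat N ℓ (bettiBasis N i) = ∑ j, bettiT N ℓ i j • bettiBasis N j := by
  simp only [bettiT_apply]
  exact ((bettiBasis N).sum_repr _).symm

theorem bettiT_comm (ℓ ℓ' : ℕ) : bettiT N ℓ * bettiT N ℓ' = bettiT N ℓ' * bettiT N ℓ := by
  rw [bettiT, bettiT, ← Matrix.transpose_mul, ← Matrix.transpose_mul,
    ← LinearMap.toMatrix_comp, ← LinearMap.toMatrix_comp, heckeLat_comm]

/-- The period map in coordinates. -/
def bettiPer : CuspForm (Gamma0 N) 2 →ₗ[ℂ] (Fin (bettiRank N) → ℂ) where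
  toFun f i := (bettiBasis N i : Module.Dual ℂ (CuspForm (Gamma0 N) 2)) f
  map_add' f g := by ext i; simp
  map_smul' c f := by ext i; simp

theorem bettiPer_apply (f : CuspForm (Gamma0 N) 2) (i : Fin (bettiRank N)) :
    bettiPer N f i = (bettiBasis N i : Module.Dual ℂ (CuspForm (Gamma0 N) 2)) f := rfl

theorem bettiPer_injective : Function.Injective (bettiPer N) := by
  rw [← LinearMap.ker_eq_bot, LinearMap.ker_eq_bot']
  intro f hf
  have h1 : ∀ l : perLat N, l.1 f = 0 := by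
    intro l
    rw [← (bettiBasis N).sum_repr l, AddSubgroup.val_finsetSum, LinearMap.sum_apply]
    refine Finset.sum_eq_zero fun i _ => ?_
    have : (bettiBasis N i).1 f = 0 := congrFun hf i
    simp [this]
  apply Fermat.Agent.ES.eq_zero_of_re_periodMap_eq_zero N f
  intro γ
  have := h1 (perPi N (Additive.ofMul γ))
  rw [coe_perPi, perHom_apply] at this
  rw [this, Complex.zero_re]

theorem bettiPer_T (ℓ : ℕ) (hℓ : ℓ.Prime) (hℓN : ¬ ℓ ∣ N) (f : CuspForm (Gamma0 N) 2) :
    bettiPer N (CuspForm.heckeTLin 2 hℓ hℓN f) =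
      ((bettiT N ℓ).map (Int.castRingHom ℂ)).mulVec (bettiPer N f) := by
  funext i
  rw [bettiPer_apply, ← heckeLat_apply N hℓ hℓN, heckeLat_bettiBasis, AddSubgroup.val_finsetSum,
    LinearMap.sum_apply, Matrix.mulVec, dotProduct]
  refine Finset.sum_congr rfl fun j _ => ?_
  rw [Matrix.map_apply, bettiPer_apply]
  simp

/-- The group of characters `Γ₀(N) → μ_m` killing all non-hyperbolic elements. -/
def neChars (m : ℕ) : Subgroup (Gamma0 N →* rootsOfUnity m ℂ) where
  carrier := {χ | NeTrivial χ}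
  one_mem' := fun _ _ => rfl
  mul_mem' := by
    intro a b ha hb γ hγ
    rw [MonoidHom.mul_apply, ha γ hγ, hb γ hγ, one_mul]
  inv_mem' := by
    intro a ha γ hγ
    rw [MonoidHom.inv_apply, ha γ hγ, inv_one]

omit [NeZero N] in
theorem mem_neChars {m : ℕ} {χ : Gamma0 N →* rootsOfUnity m ℂ} :
    χ ∈ neChars N m ↔ NeTrivial χ := Iff.rfl

/-- `a ↦ exp (2 π i a / m)` as a homomorphism `ℤ/m → μ_m`. -/
def zetaHom (m : ℕ) [NeZero m] : ZMod m →+ Additive (rootsOfUnity m ℂ) where
  toFun a := Additive.ofMul ⟨Units.mk0 (ZMod.stdAddChar a) (AddChar.val_isUnit _ a).ne_zero, by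
    rw [_root_.mem_rootsOfUnity]
    ext
    rw [Units.val_pow_eq_pow_val, Units.val_mk0, ← AddChar.map_nsmul_eq_pow]
    simp⟩
  map_zero' := by
    apply Additive.toMul.injective
    ext
    simp
  map_add' a b := by
    apply Additive.toMul.injective
    ext
    simp [AddChar.map_add_eq_mul]

omit [NeZero N] in
theorem coe_zetaHom (m : ℕ) [NeZero m] (a : ZMod m) :
    (((Additive.toMul (zetaHom m a) : rootsOfUnity m ℂ) : ℂˣ) : ℂ) = ZMod.stdAddChar a := rfl

omit [NeZero N] in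
theorem zetaHom_bijective (m : ℕ) [NeZero m] : Function.Bijective (zetaHom m) := by
  have hinj : Function.Injective (zetaHom m) := by
    intro a b hab
    apply ZMod.injective_stdAddChar
    rw [← coe_zetaHom, ← coe_zetaHom, hab]
  refine hinj.bijective_of_nat_card_le ?_
  rw [Nat.card_zmod]
  exact (Complex.card_rootsOfUnity m).le

omit [NeZero N] in
theorem nsmul_additive_rootsOfUnity (m : ℕ) (z : Additive (rootsOfUnity m ℂ)) : m • z = 0 := by
  apply Additive.toMul.injective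
  rw [toMul_nsmul, toMul_zero]
  ext
  have := (_root_.mem_rootsOfUnity m _).mp (Additive.toMul z).2
  simpa using congrArg Units.val this

omit [NeZero N] in
/-- Compatibility of the `zetaHom m`. -/
theorem coe_zetaHom_castHom {m m' : ℕ} [NeZero m] [NeZero m'] (h : m ∣ m') (a : ZMod m') :
    (((Additive.toMul (zetaHom m (ZMod.castHom h (ZMod m) a)) : rootsOfUnity m ℂ) : ℂˣ) : ℂ)
      = (((Additive.toMul (zetaHom m' a) : rootsOfUnity m' ℂ) : ℂˣ) : ℂ) ^ (m' / m) := by
  obtain ⟨n, rfl⟩ := ZMod.intCast_surjective a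
  rw [coe_zetaHom, coe_zetaHom, map_intCast, ZMod.stdAddChar_coe, ZMod.stdAddChar_coe,
    ← Complex.exp_nat_mul]
  congr 1
  obtain ⟨k, rfl⟩ := h
  have hm : (m : ℂ) ≠ 0 := Nat.cast_ne_zero.mpr (NeZero.ne m)
  have hk : (k : ℂ) ≠ 0 := by
    have : m * k ≠ 0 := NeZero.ne (m * k)
    exact Nat.cast_ne_zero.mpr (right_ne_zero_of_mul this)
  rw [Nat.mul_div_cancel_left _ (Nat.pos_of_ne_zero (NeZero.ne m))]
  push_cast
  field_simp

/-- The homomorphism `L → A` with prescribed values on the basis. -/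
def latHom {A : Type*} [AddCommGroup A] (x : Fin (bettiRank N) → A) : perLat N →+ A :=
  ((bettiBasis N).constr ℤ x).toAddMonoidHom

theorem latHom_basis {A : Type*} [AddCommGroup A] (x : Fin (bettiRank N) → A)
    (i : Fin (bettiRank N)) : latHom N x (bettiBasis N i) = x i := by
  simp [latHom]

theorem latHom_ext {A : Type*} [AddCommGroup A] {l l' : perLat N →+ A}
    (h : ∀ i, l (bettiBasis N i) = l' (bettiBasis N i)) : l = l' := by
  have : l.toIntLinearMap = l'.toIntLinearMap := (bettiBasis N).ext h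
  ext v
  exact LinearMap.congr_fun this v

theorem latHom_add {A : Type*} [AddCommGroup A] (x y : Fin (bettiRank N) → A) :
    latHom N (x + y) = latHom N x + latHom N y :=
  latHom_ext N fun i => by simp [latHom_basis]

theorem latHom_mulVec {R : Type*} [CommRing R] (ℓ : ℕ) (x : Fin (bettiRank N) → R) :
    latHom N (((bettiT N ℓ).map (Int.castRingHom R)).mulVec x)
      = (latHom N x).comp (heckeLat N ℓ).toAddMonoidHom := by
  refine latHom_ext N fun i => ?_
  rw [latHom_basis, AddMonoidHom.comp_apply, LinearMap.toAddMonoidHom_coe, heckeLat_bettiBasis,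
    map_sum, Matrix.mulVec, dotProduct]
  refine Finset.sum_congr rfl fun j _ => ?_
  rw [map_zsmul, latHom_basis, Matrix.map_apply, zsmul_eq_mul]
  rfl

theorem latHom_comp {A B : Type*} [AddCommGroup A] [AddCommGroup B] (g : A →+ B)
    (x : Fin (bettiRank N) → A) : latHom N (fun i => g (x i)) = g.comp (latHom N x) :=
  latHom_ext N fun i => by simp [latHom_basis]

/-- The character attached to `x ∈ (ℤ/m)^r`. -/
def chiOf (m : ℕ) [NeZero m] (x : Fin (bettiRank N) → ZMod m) : Gamma0 N →* rootsOfUnity m ℂ :=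
  MonoidHom.toAdditive.symm ((zetaHom m).comp ((latHom N x).comp (perPi N)))

theorem chiOf_apply (m : ℕ) [NeZero m] (x : Fin (bettiRank N) → ZMod m) (γ : Gamma0 N) :
    chiOf N m x γ = Additive.toMul (zetaHom m (latHom N x (perPi N (Additive.ofMul γ)))) := rfl

theorem chiOf_neTrivial (m : ℕ) [NeZero m] (x : Fin (bettiRank N) → ZMod m) :
    NeTrivial (chiOf N m x) := by
  intro γ hγ
  rw [chiOf_apply, (perPi_eq_zero_iff N _).mpr (perHom_eq_zero_of_trace N γ hγ), map_zero,
    map_zero, toMul_zero]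

/-- `x ↦ χ_x` as a homomorphism. -/
def charHom (m : ℕ) [NeZero m] : (Fin (bettiRank N) → ZMod m) →+ Additive (neChars N m) where
  toFun x := Additive.ofMul ⟨chiOf N m x, chiOf_neTrivial N m x⟩
  map_zero' := by
    apply Additive.toMul.injective
    apply Subtype.ext
    ext γ : 1
    show chiOf N m 0 γ = 1
    have : latHom N (0 : Fin (bettiRank N) → ZMod m) = 0 :=
      latHom_ext N fun i => by simp [latHom_basis]
    rw [chiOf_apply, this, AddMonoidHom.zero_apply, map_zero, toMul_zero]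
  map_add' x y := by
    apply Additive.toMul.injective
    apply Subtype.ext
    ext γ : 1
    show chiOf N m (x + y) γ = chiOf N m x γ * chiOf N m y γ
    rw [chiOf_apply, chiOf_apply, chiOf_apply, latHom_add, AddMonoidHom.add_apply, map_add,
      toMul_add]

theorem charHom_apply (m : ℕ) [NeZero m] (x : Fin (bettiRank N) → ZMod m) :
    (Additive.toMul (charHom N m x) : neChars N m).1 = chiOf N m x := rfl

theorem charHom_bijective (m : ℕ) [NeZero m] : Function.Bijective (charHom N m) := by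
  constructor
  · rw [injective_iff_map_eq_zero]
    intro x hx
    have h1 : ∀ γ : Gamma0 N, chiOf N m x γ = 1 := by
      intro γ
      rw [← charHom_apply, hx]
      rfl
    have h2 : ∀ v : perLat N, latHom N x v = 0 := by
      intro v
      obtain ⟨γ, rfl⟩ := perPi_surjective N v
      have := h1 (Additive.toMul γ)
      rw [chiOf_apply, ofMul_toMul] at this
      have h3 : zetaHom m (latHom N x (perPi N γ)) = 0 := Additive.toMul.injective this
      exact (injective_iff_map_eq_zero (zetaHom m)).mp (zetaHom_bijective m).1 _ h3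
    funext i
    rw [← latHom_basis N x i, h2]
    rfl
  · intro χ'
    obtain ⟨χ, rfl⟩ : ∃ χ : neChars N m, Additive.ofMul χ = χ' := ⟨Additive.toMul χ', rfl⟩
    obtain ⟨l, hl⟩ := exists_hom_perLat N m (Nat.pos_of_ne_zero (NeZero.ne m))
      (nsmul_additive_rootsOfUnity m) (MonoidHom.toAdditive χ.1) (fun γ hγ => by
        show Additive.ofMul (χ.1 γ) = 0
        rw [χ.2 γ hγ]; rfl)
    choose y hy using fun i => (zetaHom_bijective m).2 (l (bettiBasis N i))
    refine ⟨y, ?_⟩
    apply Additive.toMul.injective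
    apply Subtype.ext
    ext γ : 1
    show chiOf N m y γ = χ.1 γ
    have h1 : (zetaHom m).comp (latHom N y) = l :=
      latHom_ext N fun i => by rw [AddMonoidHom.comp_apply, latHom_basis, hy]
    rw [chiOf_apply, ← AddMonoidHom.comp_apply, h1, hl]
    rfl

/-- The isomorphism `(ℤ/m)^r ≃ Hom_ne(Γ₀(N), μ_m)`. -/
def charOf (m : ℕ) [NeZero m] : (Fin (bettiRank N) → ZMod m) ≃+ Additive (neChars N m) :=
  AddEquiv.ofBijective (charHom N m) (charHom_bijective N m)

theorem charOf_apply (m : ℕ) [NeZero m] (x : Fin (bettiRank N) → ZMod m) :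
    (Additive.toMul (charOf N m x) : neChars N m).1 = chiOf N m x := rfl

/-- **Main theorem of block BETTI.**  A compatible system of Hecke equivariant isomorphisms
`(ℤ/m)^r ≃ Hom_ne(Γ₀(N), μ_m)`. -/
theorem exists_charOf :
    ∃ c : ∀ m : ℕ, [NeZero m] → ((Fin (bettiRank N) → ZMod m) ≃+ Additive (neChars N m)),
      -- (B1) Hecke equivariance, relational form
      (∀ (m : ℕ) [NeZero m] (ℓ : ℕ) [NeZero ℓ] (_ : ℓ.Prime) (_ : ¬ ℓ ∣ N) (x : Fin (bettiRank N) → ZMod m)
        (γ : Gamma0 N) (D : HeckeDecomp N ℓ γ),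
        (Additive.toMul (c m (((bettiT N ℓ).map (Int.castRingHom (ZMod m))).mulVec x)) :
            neChars N m).1 γ = ∏ y, (Additive.toMul (c m x) : neChars N m).1 (D.γ' y)) ∧
      -- (B3) compatibility with reduction
      (∀ (m m' : ℕ) [NeZero m] [NeZero m'] (h : m ∣ m') (x : Fin (bettiRank N) → ZMod m')
        (γ : Gamma0 N),
        ((((Additive.toMul (c m (fun i => ZMod.castHom h (ZMod m) (x i))) : neChars N m).1 γ :
            rootsOfUnity m ℂ) : ℂˣ) : ℂ) =
          ((((Additive.toMul (c m' x) : neChars N m').1 γ : rootsOfUnity m' ℂ) : ℂˣ) : ℂ)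
            ^ (m' / m)) := by
  refine ⟨fun m _ => charOf N m, ?_, ?_⟩
  · intro m _ ℓ _ hℓ hℓN x γ D
    simp only [charOf_apply]
    rw [chiOf_apply, latHom_mulVec, AddMonoidHom.comp_apply, LinearMap.toAddMonoidHom_coe,
      heckeLat_perPi N hℓ hℓN γ D, map_sum, map_sum, toMul_sum]
    rfl
  · intro m m' _ _ h x γ
    simp only [charOf_apply]
    rw [chiOf_apply, chiOf_apply, ← coe_zetaHom_castHom h]
    have := latHom_comp N (ZMod.castHom h (ZMod m)).toAddMonoidHom x
    have h2 : latHom N (fun i => ZMod.castHom h (ZMod m) (x i))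
        = (ZMod.castHom h (ZMod m)).toAddMonoidHom.comp (latHom N x) := this
    rw [h2]
    rfl

end Fermat.Agent.GAL.Tors
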