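import Mathlib

set_option autoImplicit false

noncomputable section

namespace Fermat.Agent.GAL.Tors

open Complex Metric Set Filter Topology Function

/-- A nonvanishing holomorphic function on a ball has a holomorphic `m`-th root. -/
theorem exists_root_ball_of_ne_zero {g : ℂ → ℂ} {c : ℂ} {r : ℝ}
    (hg : DifferentiableOn ℂ g (ball c r)) (hne : ∀ z ∈ ball c r, g z ≠ 0) (m : ℕ) (hm : m ≠ 0) :
    ∃ k : ℂ → ℂ, DifferentiableOn ℂ k (ball c r) ∧ ∀ z ∈ ball c r, k z ^ m = g z := by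
  rcases (ball c r).eq_empty_or_nonempty with he | hnon
  · exact ⟨0, by simp [he], by simp [he]⟩
  have hc : c ∈ ball c r := by
    obtain ⟨z, hz⟩ := hnon
    exact mem_ball_self (lt_of_le_of_lt dist_nonneg (mem_ball.mp hz))
  have hg' : DifferentiableOn ℂ (deriv g) (ball c r) := hg.deriv isOpen_ball
  have hφ : DifferentiableOn ℂ (fun z => deriv g z / g z) (ball c r) := hg'.div hg hne
  obtain ⟨G, hG⟩ := hφ.isExactOn_ball
  have hgd : ∀ z ∈ ball c r, HasDerivAt g (deriv g z) z := fun z hz =>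
    (hg.differentiableAt (isOpen_ball.mem_nhds hz)).hasDerivAt
  set w : ℂ → ℂ := fun z => g z * exp (-G z) with hw
  have hwd : ∀ z ∈ ball c r, HasDerivAt w 0 z := fun z hz => by
    have h0 : HasDerivAt (fun x => cexp (-G x)) (cexp (-G z) * -(deriv g z / g z)) z :=
      (hG z hz).neg.cexp
    have h1 : HasDerivAt w (deriv g z * cexp (-G z) + g z * (cexp (-G z) * -(deriv g z / g z))) z :=
      (hgd z hz).mul h0
    have h2 := hne z hz
    have h3 : g z * (cexp (-G z) * -(deriv g z / g z)) = -(deriv g z * cexp (-G z)) := by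
      field_simp
    rwa [h3, add_neg_cancel] at h1
  have hconst : ∀ z ∈ ball c r, w z = w c := fun z hz =>
    isOpen_ball.is_const_of_deriv_eq_zero (convex_ball c r).isPreconnected
      (fun x hx => (hwd x hx).differentiableAt.differentiableWithinAt)
      (fun x hx => (hwd x hx).deriv) hz hc
  have hwc : w c ≠ 0 := mul_ne_zero (hne c hc) (exp_ne_zero _)
  refine ⟨fun z => exp ((log (w c) + G z) / m), ?_, fun z hz => ?_⟩
  · intro z hz
    have : DifferentiableAt ℂ G z := (hG z hz).differentiableAt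
    exact (((differentiableAt_const _).add this).div_const _).cexp.differentiableWithinAt
  · have hm' : (m : ℂ) ≠ 0 := Nat.cast_ne_zero.mpr hm
    rw [← exp_nat_mul, mul_div_cancel₀ _ hm', exp_add, exp_log hwc, ← hconst z hz, hw]
    simp only
    rw [mul_assoc, ← exp_add, neg_add_cancel, exp_zero, mul_one]

/-- Two holomorphic functions with the same `m`-th power which agree at a point where they do not
vanish agree on a connected open set. -/
theorem eqOn_of_pow_eq {a b : ℂ → ℂ} {B : Set ℂ} (hB : IsOpen B) (hBc : IsPreconnected B)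
    (ha : DifferentiableOn ℂ a B) (hb : DifferentiableOn ℂ b B) {m : ℕ} (hm : m ≠ 0)
    (hab : ∀ z ∈ B, a z ^ m = b z ^ m) {z₀ : ℂ} (hz₀ : z₀ ∈ B) (h0 : a z₀ = b z₀)
    (hne : b z₀ ≠ 0) : EqOn a b B := by
  have haA := ha.analyticOnNhd hB
  have hbA := hb.analyticOnNhd hB
  refine haA.eqOn_of_preconnected_of_eventuallyEq hbA hBc hz₀ ?_
  set Q : ℂ → ℂ := fun z => ∑ i ∈ Finset.range m, a z ^ i * b z ^ (m - 1 - i) with hQ
  have hQc : ContinuousAt Q z₀ := by
    have h1 : ContinuousAt a z₀ := (haA z₀ hz₀).continuousAt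
    have h2 : ContinuousAt b z₀ := (hbA z₀ hz₀).continuousAt
    exact tendsto_finsetSum _ fun i _ => (h1.pow i).mul (h2.pow _)
  have hQ0 : Q z₀ ≠ 0 := by
    have : Q z₀ = m * b z₀ ^ (m - 1) := by
      simp only [hQ, h0]
      rw [Finset.sum_congr rfl (g := fun _ => b z₀ ^ (m - 1))]
      · simp
      · intro i hi
        rw [← pow_add]
        congr 1
        have := Finset.mem_range.mp hi
        omega
    rw [this]
    exact mul_ne_zero (Nat.cast_ne_zero.mpr hm) (pow_ne_zero _ hne)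
  filter_upwards [hQc.eventually_ne hQ0, hB.mem_nhds hz₀] with z hz hzB
  have h1 : (a z - b z) * Q z = 0 := by
    have := (Commute.all (a z) (b z)).mul_geom_sum₂ m
    rw [hQ]
    simp only
    rw [this, hab z hzB, sub_self]
  exact sub_eq_zero.mp ((mul_eq_zero.mp h1).resolve_right hz)

/-- `m`-th root on a ball, zeros allowed. -/
theorem exists_root_ball {f : ℂ → ℂ} {c : ℂ} {r : ℝ}
    (hf : AnalyticOnNhd ℂ f (closedBall c r)) (m : ℕ) (hm : m ≠ 0)
    (hord : ∀ z ∈ closedBall c r, ∃ k : ℕ, analyticOrderAt f z = ((m * k : ℕ) : ℕ∞)) :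
    ∃ h : ℂ → ℂ, DifferentiableOn ℂ h (ball c r) ∧ ∀ z ∈ ball c r, h z ^ m = f z := by
  set K := closedBall c r with hK
  have hmer : MeromorphicOn f K := hf.meromorphicOn
  have hordZ : ∀ z ∈ K, ∃ k : ℕ, meromorphicOrderAt f z = ((m * k : ℕ) : ℤ) := fun z hz => by
    obtain ⟨k, hk⟩ := hord z hz
    refine ⟨k, ?_⟩
    rw [(hf z hz).meromorphicOrderAt_eq, hk]
    rfl
  have htop : ∀ u : K, meromorphicOrderAt f u ≠ ⊤ := fun u => by
    obtain ⟨k, hk⟩ := hordZ u u.2
    rw [hk]; exact WithTop.coe_ne_top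
  have hfin : (MeromorphicOn.divisor f K).support.Finite :=
    (MeromorphicOn.divisor f K).finiteSupport (isCompact_closedBall c r)
  obtain ⟨g, hgA, hg0, hfg⟩ := hmer.extract_zeros_poles htop hfin
  set D : ℂ → ℤ := fun u => MeromorphicOn.divisor f K u with hD
  have hDk : ∀ u, ∃ k : ℕ, D u = m * k := fun u => by
    by_cases hu : u ∈ K
    · obtain ⟨k, hk⟩ := hordZ u hu
      refine ⟨k, ?_⟩
      rw [hD]
      simp only
      rw [MeromorphicOn.divisor_apply hmer hu, hk]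
      simp
    · refine ⟨0, ?_⟩
      rw [hD]
      simp only
      rw [MeromorphicOn.divisor_def, if_neg (fun h => hu h.2)]
      simp
  choose E hE using hDk
  set φ : ℂ → ℂ := ∏ᶠ u, (· - u) ^ ((E u : ℕ) : ℤ) with hφ
  have hφA : ∀ z, AnalyticAt ℂ φ z := fun z =>
    Function.FactorizedRational.analyticAt (d := fun u => ((E u : ℕ) : ℤ)) (Int.natCast_nonneg _)
  have hsupp : (fun u : ℂ => ((E u : ℕ) : ℤ)).support ⊆ (MeromorphicOn.divisor f K).support := by
    intro u hu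
    simp only [mem_support, ne_eq] at hu ⊢
    intro h0
    apply hu
    have h1 : D u = 0 := h0
    rw [hE u] at h1
    rcases mul_eq_zero.mp h1 with h | h
    · exact absurd (by exact_mod_cast h) hm
    · exact h
  have hφm : φ ^ m = ∏ᶠ u, (· - u) ^ MeromorphicOn.divisor f K u := by
    rw [hφ, finprod_pow]
    · refine finprod_congr fun u => ?_
      have h1 : MeromorphicOn.divisor f K u = ((E u : ℕ) : ℤ) * (m : ℤ) := by
        have : D u = m * E u := hE u
        rw [mul_comm] at this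
        exact this
      rw [h1, zpow_mul, zpow_natCast ((fun x : ℂ => x - u) ^ ((E u : ℕ) : ℤ)) m]
    · show (mulSupport fun u : ℂ => (fun x : ℂ => x - u) ^ ((E u : ℕ) : ℤ)).Finite
      rw [Function.FactorizedRational.mulSupport (fun u => ((E u : ℕ) : ℤ))]
      exact hfin.subset hsupp
  have hsub : ball c r ⊆ K := ball_subset_closedBall
  obtain ⟨k, hkd, hk⟩ := exists_root_ball_of_ne_zero (g := g) (c := c) (r := r)
    (hgA.differentiableOn.mono hsub) (fun z hz => hg0 ⟨z, hsub hz⟩) m hm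
  refine ⟨φ * k, ?_, fun z hz => ?_⟩
  · exact DifferentiableOn.mul (fun z _ => (hφA z).differentiableAt.differentiableWithinAt) hkd
  · have h1 : f =ᶠ[codiscreteWithin (ball c r)] (φ ^ m) • g := by
      rw [hφm]
      exact hfg.filter_mono (Filter.codiscreteWithin_mono hsub)
    have hfz : AnalyticAt ℂ f z := hf z (hsub hz)
    have hgz : AnalyticAt ℂ ((φ ^ m) • g) z := ((hφA z).pow m).smul (hgA z (hsub hz))
    have hacc : AccPt z (𝓟 (ball c r)) := by
      rw [accPt_iff_nhds]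
      intro V hV
      have hV' : V ∩ ball c r ∈ 𝓝 z := inter_mem hV (isOpen_ball.mem_nhds hz)
      obtain ⟨y, hy⟩ := (NormedField.nhdsNE_neBot z).nonempty_of_mem
        (inter_mem_nhdsWithin _ hV' : ({z}ᶜ ∩ (V ∩ ball c r)) ∈ 𝓝[≠] z)
      exact ⟨y, hy.2, hy.1⟩
    have h2 := hfz.meromorphicAt.eventuallyEq_nhdsNE_of_eventuallyEq_codiscreteWithin
      hgz.meromorphicAt hz hacc h1
    have h3 := (hfz.continuousAt.eventuallyEq_nhds_iff_eventuallyEq_nhdsNE hgz.continuousAt).mp h2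
    have h4 := h3.eq_of_nhds
    rw [h4]
    simp only [Pi.mul_apply, Pi.smul_apply', Pi.pow_apply, smul_eq_mul, mul_pow, hk z hz]

/-- Global `m`-th root on a set exhausted by an increasing sequence of balls. -/
theorem exists_root_of_exhaustion {U : Set ℂ} (c : ℕ → ℂ) (r : ℕ → ℝ) (hr0 : 0 < r 0)
    (hmono : ∀ n, ball (c n) (r n) ⊆ ball (c (n + 1)) (r (n + 1)))
    (hsub : ∀ n, closedBall (c n) (r n) ⊆ U) (hcov : U ⊆ ⋃ n, ball (c n) (r n))
    {f : ℂ → ℂ} (hf : AnalyticOnNhd ℂ f U) (m : ℕ) (hm : m ≠ 0)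
    (hord : ∀ z ∈ U, ∃ k : ℕ, analyticOrderAt f z = ((m * k : ℕ) : ℕ∞)) :
    ∃ h : ℂ → ℂ, DifferentiableOn ℂ h U ∧ ∀ z ∈ U, h z ^ m = f z := by
  have hmono' : ∀ n k, n ≤ k → ball (c n) (r n) ⊆ ball (c k) (r k) := fun n k hnk => by
    induction hnk with
    | refl => exact Subset.rfl
    | step _ ih => exact ih.trans (hmono _)
  -- base point
  have hc0U : c 0 ∈ U := hsub 0 (mem_closedBall_self hr0.le)
  obtain ⟨z₀, hz₀B, hz₀⟩ : ∃ z₀ ∈ ball (c 0) (r 0), f z₀ ≠ 0 := by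
    rcases (hf (c 0) hc0U).eventually_eq_zero_or_eventually_ne_zero with h | h
    · exfalso
      obtain ⟨k, hk⟩ := hord (c 0) hc0U
      rw [analyticOrderAt_eq_top.mpr h] at hk
      exact ENat.top_ne_natCast _ hk
    · have h2 : ∀ᶠ z in 𝓝[≠] (c 0), z ∈ ball (c 0) (r 0) :=
        mem_nhdsWithin_of_mem_nhds (ball_mem_nhds _ hr0)
      obtain ⟨z, hz⟩ := (h.and h2).exists
      exact ⟨z, hz.2, hz.1⟩
  obtain ⟨a₀, ha₀⟩ : ∃ a₀ : ℂ, a₀ ^ m = f z₀ := IsAlgClosed.exists_pow_nat_eq _ (Nat.pos_of_ne_zero hm)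
  have ha₀ne : a₀ ≠ 0 := fun h => hz₀ (by rw [← ha₀, h, zero_pow hm])
  -- normalised roots on the balls
  have hex : ∀ n, ∃ h : ℂ → ℂ, DifferentiableOn ℂ h (ball (c n) (r n)) ∧
      (∀ z ∈ ball (c n) (r n), h z ^ m = f z) ∧ h z₀ = a₀ := fun n => by
    obtain ⟨h, hd, hp⟩ := exists_root_ball (hf.mono (hsub n)) m hm
      (fun z hz => hord z (hsub n hz))
    have hz₀n : z₀ ∈ ball (c n) (r n) := hmono' 0 n (Nat.zero_le n) hz₀B
    have hne : h z₀ ≠ 0 := fun h0 => hz₀ (by rw [← hp z₀ hz₀n, h0, zero_pow hm])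
    refine ⟨fun z => (a₀ / h z₀) * h z, hd.const_mul _, fun z hz => ?_, ?_⟩
    · simp only
      rw [mul_pow, div_pow, ha₀, hp z₀ hz₀n, div_self hz₀, one_mul, hp z hz]
    · simp only
      rw [div_mul_cancel₀ _ hne]
  choose H hHd hHp hH0 using hex
  have hcompat : ∀ n k, n ≤ k → EqOn (H n) (H k) (ball (c n) (r n)) := fun n k hnk =>
    eqOn_of_pow_eq isOpen_ball (convex_ball _ _).isPreconnected (hHd n)
      ((hHd k).mono (hmono' n k hnk)) hm
      (fun z hz => by rw [hHp n z hz, hHp k z (hmono' n k hnk hz)])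
      (hmono' 0 n (Nat.zero_le n) hz₀B) (by rw [hH0, hH0]) (by rw [hH0]; exact ha₀ne)
  classical
  have hidx : ∀ z ∈ U, ∃ n, z ∈ ball (c n) (r n) := fun z hz => by
    simpa using hcov hz
  set h : ℂ → ℂ := fun z => if hz : ∃ n, z ∈ ball (c n) (r n) then H (Nat.find hz) z else 0 with hh
  have hhn : ∀ n, EqOn h (H n) (ball (c n) (r n)) := fun n z hz => by
    have hz' : ∃ n, z ∈ ball (c n) (r n) := ⟨n, hz⟩
    simp only [hh, dif_pos hz']
    exact hcompat _ n (Nat.find_min' hz' hz) (Nat.find_spec hz')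
  refine ⟨h, fun z hz => ?_, fun z hz => ?_⟩
  · obtain ⟨n, hn⟩ := hidx z hz
    have h1 : DifferentiableAt ℂ (H n) z := (hHd n).differentiableAt (isOpen_ball.mem_nhds hn)
    have h2 : h =ᶠ[𝓝 z] H n := Filter.eventuallyEq_of_mem (isOpen_ball.mem_nhds hn) (hhn n)
    exact (h2.differentiableAt_iff.mpr h1).differentiableWithinAt
  · obtain ⟨n, hn⟩ := hidx z hz
    rw [hhn n hn, hHp n z hn]

/-- The upper half plane as a subset of `ℂ`. -/
abbrev UHP : Set ℂ := {z : ℂ | 0 < z.im}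

/-- Global `m`-th root on the upper half plane. -/
theorem exists_root_UHP {f : ℂ → ℂ} (hf : DifferentiableOn ℂ f UHP) (m : ℕ) (hm : m ≠ 0)
    (hord : ∀ z ∈ UHP, ∃ k : ℕ, analyticOrderAt f z = ((m * k : ℕ) : ℕ∞)) :
    ∃ h : ℂ → ℂ, DifferentiableOn ℂ h UHP ∧ ∀ z ∈ UHP, h z ^ m = f z := by
  have hopen : IsOpen UHP := isOpen_lt continuous_const Complex.continuous_im
  set c : ℕ → ℂ := fun n => ((n : ℝ) + 2 : ℝ) * I with hc
  set r : ℕ → ℝ := fun n => ((n : ℝ) + 2) - 1 / ((n : ℝ) + 2) with hr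
  have hpos : ∀ n : ℕ, (0 : ℝ) < (n : ℝ) + 2 := fun n => by positivity
  refine exists_root_of_exhaustion c r ?_ ?_ ?_ ?_ (hf.analyticOnNhd hopen) m hm hord
  · simp only [hr]; norm_num
  · intro n
    apply ball_subset_ball'
    have hd : dist (c n) (c (n + 1)) = 1 := by
      simp only [hc, dist_eq_norm]
      rw [← sub_mul, norm_mul, norm_I, mul_one, ← ofReal_sub, norm_real]
      push_cast
      norm_num
    rw [hd]
    simp only [hr]
    push_cast
    have h1 := hpos n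
    have h2 : 1 / ((n : ℝ) + 1 + 2) ≤ 1 / ((n : ℝ) + 2) :=
      one_div_le_one_div_of_le h1 (by linarith)
    linarith
  · intro n z hz
    have h1 : |z.im - ((n : ℝ) + 2)| ≤ r n := by
      have h2 : ‖z - c n‖ ≤ r n := by simpa [dist_eq_norm] using hz
      have h3 := Complex.abs_im_le_norm (z - c n)
      have h4 : (z - c n).im = z.im - ((n : ℝ) + 2) := by
        simp [hc]
      rw [h4] at h3
      exact h3.trans h2
    have h5 := (abs_le.mp h1).1
    simp only [hr] at h5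
    have h6 : 0 < 1 / ((n : ℝ) + 2) := by have := hpos n; positivity
    show 0 < z.im
    linarith
  · intro z hz
    have hy : 0 < z.im := hz
    obtain ⟨n, hn⟩ := exists_nat_gt ((z.re ^ 2 + z.im ^ 2 + 2) / (2 * z.im))
    refine mem_iUnion.mpr ⟨n, ?_⟩
    rw [mem_ball, dist_eq_norm]
    have hR := hpos n
    set R : ℝ := (n : ℝ) + 2 with hRdef
    have h1 : z.re ^ 2 + z.im ^ 2 + 2 < 2 * z.im * R := by
      rw [div_lt_iff₀ (by positivity)] at hn
      nlinarith
    have hR1 : 1 < R := by rw [hRdef]; have : (0 : ℝ) ≤ n := Nat.cast_nonneg n; linarith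
    have hrpos : 0 < R - 1 / R := by
      have : 1 / R < 1 := by rw [div_lt_one hR]; exact hR1
      linarith
    have h2 : ‖z - c n‖ ^ 2 = z.re ^ 2 + (z.im - R) ^ 2 := by
      rw [Complex.sq_norm, Complex.normSq_apply]
      simp [hc, ← hRdef]
      ring
    have h3 : ‖z - c n‖ ^ 2 < (R - 1 / R) ^ 2 := by
      rw [h2]
      have h4 : (R - 1 / R) ^ 2 = R ^ 2 - 2 + (1 / R) ^ 2 := by
        field_simp
        ring
      rw [h4]
      have : 0 ≤ (1 / R) ^ 2 := by positivity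
      nlinarith
    exact lt_of_pow_lt_pow_left₀ 2 hrpos.le h3

/-! ### Versions for functions on `ℍ` -/

open UpperHalfPlane
open scoped MatrixGroups Manifold

/-- Holomorphic `m`-th root on `ℍ` of a holomorphic function all of whose orders of vanishing are
(finite and) divisible by `m`. -/
theorem exists_root {f : ℍ → ℂ} (hf : MDiff f) (m : ℕ) (hm : m ≠ 0)
    (hord : ∀ τ : ℍ, ∃ k : ℕ, analyticOrderAt (f ∘ ofComplex) (τ : ℂ) = ((m * k : ℕ) : ℕ∞)) :
    ∃ h : ℍ → ℂ, MDiff h ∧ ∀ τ, h τ ^ m = f τ := by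
  obtain ⟨h₀, hd, hp⟩ := exists_root_UHP (UpperHalfPlane.mdifferentiable_iff.mp hf) m hm
    (fun z hz => hord ⟨z, hz⟩)
  refine ⟨fun τ => h₀ τ, ?_, fun τ => ?_⟩
  · rw [UpperHalfPlane.mdifferentiable_iff]
    refine hd.congr fun z hz => ?_
    simp only [Function.comp_apply]
    rw [ofComplex_apply_of_im_pos hz]
  · have := hp τ τ.im_pos
    rw [this, Function.comp_apply, ofComplex_apply]

/-- Two holomorphic functions on `ℍ` with the same `m`-th power differ by an `m`-th root of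
unity. -/
theorem root_unique {a b : ℍ → ℂ} (ha : MDiff a) (hb : MDiff b) {m : ℕ} (hm : m ≠ 0)
    (hab : ∀ τ, a τ ^ m = b τ ^ m) (hb0 : b ≠ 0) : ∃ ζ : ℂ, ζ ^ m = 1 ∧ ∀ τ, a τ = ζ * b τ := by
  obtain ⟨τ₀, hτ₀⟩ : ∃ τ₀, b τ₀ ≠ 0 := by
    by_contra hcon
    exact hb0 (funext fun τ => by_contra fun h => hcon ⟨τ, h⟩)
  refine ⟨a τ₀ / b τ₀, by rw [div_pow, hab, div_self (pow_ne_zero _ hτ₀)], fun τ => ?_⟩
  have hopen : IsOpen UHP := isOpen_upperHalfPlaneSet
  have hconn : IsPreconnected UHP :=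
    (Complex.isConnected_of_upperHalfPlane subset_rfl (by grind)).isPreconnected
  have ha' := UpperHalfPlane.mdifferentiable_iff.mp ha
  have hb' := UpperHalfPlane.mdifferentiable_iff.mp hb
  have hζ : (a τ₀ / b τ₀) ^ m = 1 := by rw [div_pow, hab, div_self (pow_ne_zero _ hτ₀)]
  have hζ0 : a τ₀ / b τ₀ ≠ 0 := fun h => by rw [h, zero_pow hm] at hζ; exact zero_ne_one hζ
  have key := eqOn_of_pow_eq (a := a ∘ ofComplex) (b := fun z => (a τ₀ / b τ₀) * (b ∘ ofComplex) z)
    hopen hconn ha' (hb'.const_mul _) hm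
    (fun z hz => by
      simp only [Function.comp_apply]
      rw [mul_pow, hζ, one_mul, hab])
    (z₀ := (τ₀ : ℂ)) τ₀.im_pos
    (by simp only [Function.comp_apply, ofComplex_apply]; rw [div_mul_cancel₀ _ hτ₀])
    (by simp only [Function.comp_apply, ofComplex_apply]; exact mul_ne_zero hζ0 hτ₀)
  have := key τ.im_pos
  simpa only [Function.comp_apply, ofComplex_apply] using this

theorem mdiff_comp_smul {h : ℍ → ℂ} (hh : MDiff h) (γ : SL(2, ℤ)) :
    MDiff (fun τ : ℍ => h (γ • τ)) := by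
  have hg : 0 < ((γ : GL (Fin 2) ℝ)).det.val := by simp
  exact hh.comp (mdifferentiable_smul hg)

/-- The character attached to a holomorphic function whose `m`-th power is `Γ`-invariant. -/
theorem exists_character (Γ : Subgroup SL(2, ℤ)) {h : ℍ → ℂ} (hh : MDiff h) (h0 : h ≠ 0) {m : ℕ}
    [NeZero m] (hinv : ∀ γ ∈ Γ, ∀ τ : ℍ, h (γ • τ) ^ m = h τ ^ m) :
    ∃ χ : Γ →* rootsOfUnity m ℂ, ∀ (γ : Γ) (τ : ℍ),
      h ((γ : SL(2, ℤ)) • τ) = ((χ γ : ℂˣ) : ℂ) * h τ := by
  have hm : m ≠ 0 := NeZero.ne m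
  have hex : ∀ γ : Γ, ∃ ζ : ℂ, ζ ^ m = 1 ∧ ∀ τ, h ((γ : SL(2, ℤ)) • τ) = ζ * h τ := fun γ =>
    root_unique (mdiff_comp_smul hh γ) hh hm (hinv γ γ.2) h0
  choose Z hZ1 hZ using hex
  obtain ⟨τ₀, hτ₀⟩ : ∃ τ₀, h τ₀ ≠ 0 := by
    by_contra hcon
    exact h0 (funext fun τ => by_contra fun h => hcon ⟨τ, h⟩)
  have hone : Z 1 = 1 := by
    have := hZ 1 τ₀
    simp only [Subgroup.coe_one, one_smul] at this
    exact (mul_right_cancel₀ hτ₀ (by rw [one_mul]; exact this)).symm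
  have hmul : ∀ γ δ : Γ, Z (γ * δ) = Z γ * Z δ := fun γ δ => by
    have h1 := hZ (γ * δ) τ₀
    rw [Subgroup.coe_mul, mul_smul, hZ γ, hZ δ, ← mul_assoc] at h1
    exact (mul_right_cancel₀ hτ₀ h1).symm
  let χ₀ : Γ →* ℂ := { toFun := Z, map_one' := hone, map_mul' := hmul }
  let χ₁ : Γ →* ℂˣ := χ₀.toHomUnits
  have hχ₁ : ∀ γ, ((χ₁ γ : ℂˣ) : ℂ) = Z γ := fun γ => rfl
  refine ⟨χ₁.codRestrict (rootsOfUnity m ℂ) (fun γ => ?_), fun γ τ => ?_⟩
  · rw [_root_.mem_rootsOfUnity]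
    ext
    rw [Units.val_pow_eq_pow_val, hχ₁, hZ1, Units.val_one]
  · exact hZ γ τ

end Fermat.Agent.GAL.Tors
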