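import Mathlib

set_option autoImplicit false

/-!
# Eisenstein type series with bounded coefficients, twisted Eisenstein series

`gEis a k z = ∑' v, a v * (v 0 * z + v 1) ^ (-k)` for a bounded `a : (Fin 2 → ℤ) → ℂ`, `3 ≤ k`.
-/

namespace Fermat.Agent.GAL.Tors.TwistedEis

open UpperHalfPlane ModularForm EisensteinSeries Matrix Filter Topology
open scoped MatrixGroups Manifold

noncomputable section

/-- Eisenstein type series with coefficients `a`. -/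
def gEis (a : (Fin 2 → ℤ) → ℂ) (k : ℤ) (z : ℍ) : ℂ :=
  ∑' v : Fin 2 → ℤ, a v * eisSummand k v z

variable {a : (Fin 2 → ℤ) → ℂ} {C : ℝ} {k : ℤ}

lemma summable_gEis (ha : ∀ v, ‖a v‖ ≤ C) (hk : 3 ≤ k) (z : ℍ) :
    Summable fun v => a v * eisSummand k v z := by
  refine Summable.of_norm_bounded (g := fun v => C * ‖eisSummand k v z‖)
    ((summable_norm_eisSummand hk z).mul_left C) ?_
  intro v
  rw [norm_mul]
  gcongr
  exact ha v

/-- right multiplication by `A` as a permutation of `ℤ²`. -/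
def vecMulEquiv (A : SL(2, ℤ)) : (Fin 2 → ℤ) ≃ (Fin 2 → ℤ) where
  toFun v := v ᵥ* (A : Matrix (Fin 2) (Fin 2) ℤ)
  invFun v := v ᵥ* ((A⁻¹ : SL(2, ℤ)) : Matrix (Fin 2) (Fin 2) ℤ)
  left_inv v := by
    simp_rw [vecMul_vecMul, ← Matrix.SpecialLinearGroup.coe_mul, mul_inv_cancel,
      Matrix.SpecialLinearGroup.coe_one, vecMul_one]
  right_inv v := by
    simp_rw [vecMul_vecMul, ← Matrix.SpecialLinearGroup.coe_mul, inv_mul_cancel,
      Matrix.SpecialLinearGroup.coe_one, vecMul_one]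

lemma gEis_smul (a : (Fin 2 → ℤ) → ℂ) (k : ℤ) (A : SL(2, ℤ)) (z : ℍ) :
    gEis a k (A • z) = denom A z ^ k *
      gEis (fun v => a (v ᵥ* ((A⁻¹ : SL(2, ℤ)) : Matrix (Fin 2) (Fin 2) ℤ))) k z := by
  unfold gEis
  rw [← tsum_mul_left, ← (vecMulEquiv A).tsum_eq (fun w => denom A z ^ k *
    (a (w ᵥ* ((A⁻¹ : SL(2, ℤ)) : Matrix (Fin 2) (Fin 2) ℤ)) * eisSummand k w z))]
  refine tsum_congr fun v => ?_
  have h : (vecMulEquiv A v) ᵥ* ((A⁻¹ : SL(2, ℤ)) : Matrix (Fin 2) (Fin 2) ℤ) = v :=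
    (vecMulEquiv A).left_inv v
  rw [h, eisSummand_SL2_apply]
  show _ = denom A z ^ k * (a v * eisSummand k (v ᵥ* (A : Matrix (Fin 2) (Fin 2) ℤ)) z)
  ring

lemma gEis_slash (a : (Fin 2 → ℤ) → ℂ) (k : ℤ) (A : SL(2, ℤ)) :
    gEis a k ∣[k] A =
      gEis (fun v => a (v ᵥ* ((A⁻¹ : SL(2, ℤ)) : Matrix (Fin 2) (Fin 2) ℤ))) k := by
  ext z
  rw [SL_slash_apply, gEis_smul, _root_.zpow_neg, mul_comm, ← mul_assoc,
    inv_mul_cancel₀ (zpow_ne_zero _ (denom_ne_zero _ z)), one_mul]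

/-! ### Holomorphy -/

lemma norm_term_le (ha : ∀ v, ‖a v‖ ≤ C) (hk : 3 ≤ k) (v : Fin 2 → ℤ) {A B : ℝ} (hB : 0 < B)
    {z : ℍ} (hz : z ∈ verticalStrip A B) :
    ‖a v * eisSummand k v z‖ ≤ C * (r ⟨⟨A, B⟩, hB⟩ ^ (-k : ℝ) * ‖v‖ ^ (-k : ℝ)) := by
  have hk' : (0 : ℝ) ≤ k := by
    have : (0 : ℤ) ≤ k := by omega
    exact_mod_cast this
  have h1 := summand_bound_of_mem_verticalStrip hk' v hB hz
  rw [norm_mul]
  have h2 : ‖eisSummand k v z‖ = ‖(v 0 : ℂ) * (z : ℂ) + v 1‖ ^ (-k : ℝ) := by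
    simp only [eisSummand, norm_zpow]
    rw [← Real.rpow_intCast]
    push_cast
    rfl
  rw [h2]
  exact mul_le_mul (ha v) h1 (by positivity) ((norm_nonneg _).trans (ha v))

lemma summable_bound (hk : 3 ≤ k) (D : ℝ) :
    Summable fun v : Fin 2 → ℤ => C * (D * ‖v‖ ^ (-k : ℝ)) := by
  have hk' : (2 : ℝ) < k := by norm_cast
  exact ((summable_one_div_norm_rpow hk').mul_left D).mul_left C

theorem gEis_tendstoLocallyUniformly (ha : ∀ v, ‖a v‖ ≤ C) (hk : 3 ≤ k) :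
    TendstoLocallyUniformly (fun (s : Finset (Fin 2 → ℤ)) ↦ (∑ x ∈ s, a x * eisSummand k x ·))
      (gEis a k ·) Filter.atTop := by
  simp only [tendstoLocallyUniformly_iff_forall_isCompact, gEis]
  intro K hK
  obtain ⟨A, B, hB, HABK⟩ := subset_verticalStrip_of_isCompact hK
  exact (tendstoUniformlyOn_tsum (hu := summable_bound (C := C) hk (r ⟨⟨A, B⟩, hB⟩ ^ (-k : ℝ)))
    (fun p z hz ↦ norm_term_le ha hk p hB hz)).mono HABK

lemma gEis_tendstoLocallyUniformlyOn (ha : ∀ v, ‖a v‖ ≤ C) (hk : 3 ≤ k) :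
    TendstoLocallyUniformlyOn (fun (s : Finset (Fin 2 → ℤ)) ↦
      ↑ₕ(fun (z : ℍ) ↦ ∑ x ∈ s, a x * eisSummand k x z)) (↑ₕ(gEis a k))
          Filter.atTop {z : ℂ | 0 < z.im} := by
  rw [← upperHalfPlaneSet, ← range_coe, ← Set.image_univ]
  apply TendstoLocallyUniformlyOn.comp (s := ⊤) _ _ _ (OpenPartialHomeomorph.continuousOn_symm _)
  · simp only [Set.top_eq_univ, tendstoLocallyUniformlyOn_univ]
    apply gEis_tendstoLocallyUniformly ha hk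
  · simp only [IsOpenEmbedding.toOpenPartialHomeomorph_target, Set.top_eq_univ,
      Set.mapsTo_range_iff, Set.mem_univ, forall_const]

theorem differentiableOn_gEis (ha : ∀ v, ‖a v‖ ≤ C) (hk : 3 ≤ k) :
    DifferentiableOn ℂ (↑ₕ(gEis a k)) {z : ℂ | 0 < z.im} := by
  refine (gEis_tendstoLocallyUniformlyOn ha hk).differentiableOn
    (Eventually.of_forall fun s ↦ ?_) isOpen_upperHalfPlaneSet
  have h : ∀ x : Fin 2 → ℤ, DifferentiableOn ℂ (fun w : ℂ => a x * (↑ₕ(eisSummand k x)) w)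
      {z : ℂ | 0 < z.im} := fun x =>
    (eisSummand_extension_differentiableOn k x).const_mul (a x)
  exact DifferentiableOn.fun_sum fun x _ => h x

theorem mdifferentiable_gEis (ha : ∀ v, ‖a v‖ ≤ C) (hk : 3 ≤ k) : MDiff (gEis a k) :=
  UpperHalfPlane.mdifferentiable_iff.2 (differentiableOn_gEis ha hk)

/-! ### Boundedness at `i∞` -/

lemma norm_gEis_le (ha : ∀ v, ‖a v‖ ≤ C) (hk : 3 ≤ k) {A B : ℝ} (hB : 0 < B)
    {z : ℍ} (hz : z ∈ verticalStrip A B) :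
    ‖gEis a k z‖ ≤ ∑' v : Fin 2 → ℤ, C * (r ⟨⟨A, B⟩, hB⟩ ^ (-k : ℝ) * ‖v‖ ^ (-k : ℝ)) := by
  unfold gEis
  exact tsum_of_norm_bounded (summable_bound hk _).hasSum (fun v => norm_term_le ha hk v hB hz)

lemma denom_SL (A : SL(2, ℤ)) (z : ℍ) : denom A z = (A 1 0 : ℂ) * z + (A 1 1 : ℂ) := by
  simp [denom]

lemma denom_T_zpow (n : ℤ) (z : ℍ) : denom (ModularGroup.T ^ n : SL(2, ℤ)) z = 1 := by
  rw [denom_SL, ModularGroup.coe_T_zpow]
  simp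

/-- translation: `gEis a k z = gEis (a ∘ (· * T^n)) k (T^n • z)`. -/
lemma gEis_T_zpow (a : (Fin 2 → ℤ) → ℂ) (k : ℤ) (n : ℤ) (z : ℍ) :
    gEis (fun v => a (v ᵥ* ((ModularGroup.T ^ n : SL(2, ℤ)) : Matrix (Fin 2) (Fin 2) ℤ))) k
      ((ModularGroup.T ^ n : SL(2, ℤ)) • z) = gEis a k z := by
  rw [gEis_smul, denom_T_zpow, _root_.one_zpow, one_mul]
  congr 1
  ext v
  exact congrArg a ((vecMulEquiv (ModularGroup.T ^ n)).right_inv v)

theorem isBoundedAtImInfty_gEis (ha : ∀ v, ‖a v‖ ≤ C) (hk : 3 ≤ k) :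
    IsBoundedAtImInfty (gEis a k) := by
  rw [UpperHalfPlane.isBoundedAtImInfty_iff]
  refine ⟨∑' v : Fin 2 → ℤ, C * (r ⟨⟨((1 : ℕ) : ℝ), 1⟩, one_pos⟩ ^ (-k : ℝ) * ‖v‖ ^ (-k : ℝ)), 1, ?_⟩
  intro z hz
  obtain ⟨n, hn⟩ := ModularGroup_T_zpow_mem_verticalStrip z (N := 1) one_pos
  rw [← gEis_T_zpow a k (((1 : ℕ) : ℤ) * n) z]
  exact norm_gEis_le (fun v => ha _) hk one_pos (verticalStrip_anti_right _ hz hn)

theorem isBoundedAtImInfty_gEis_slash (ha : ∀ v, ‖a v‖ ≤ C) (hk : 3 ≤ k) (A : SL(2, ℤ)) :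
    IsBoundedAtImInfty (gEis a k ∣[k] A) := by
  rw [gEis_slash]
  exact isBoundedAtImInfty_gEis (fun v => ha _) hk

/-! ### The limit at `i∞` -/

/-- The value at `i∞`. -/
def gEisLim (a : (Fin 2 → ℤ) → ℂ) (k : ℤ) : ℂ :=
  ∑' v : Fin 2 → ℤ, if v 0 = 0 then a v * (v 1 : ℂ) ^ (-k) else 0

lemma tendsto_eisSummand (hk : 3 ≤ k) (v : Fin 2 → ℤ) (hv : v 0 ≠ 0) :
    Tendsto (fun z : ℍ => eisSummand k v z) atImInfty (𝓝 0) := by
  rw [tendsto_zero_iff_norm_tendsto_zero]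
  have h1 : Tendsto (fun z : ℍ => (z.im)⁻¹) atImInfty (𝓝 0) :=
    tendsto_inv_atTop_zero.comp tendsto_comap
  refine squeeze_zero' (Eventually.of_forall fun z => norm_nonneg _) ?_ h1
  have h2 : ∀ᶠ z : ℍ in atImInfty, 1 ≤ z.im := by
    rw [Filter.Eventually, atImInfty_mem]
    exact ⟨1, fun z hz => hz⟩
  filter_upwards [h2] with z hz
  have h3 : z.im ≤ ‖(v 0 : ℂ) * (z : ℂ) + v 1‖ := by
    have h4 : |((v 0 : ℂ) * (z : ℂ) + v 1).im| ≤ ‖(v 0 : ℂ) * (z : ℂ) + v 1‖ :=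
      Complex.abs_im_le_norm _
    have h5 : ((v 0 : ℂ) * (z : ℂ) + v 1).im = (v 0 : ℝ) * z.im := by simp
    rw [h5, abs_mul, abs_of_pos z.im_pos] at h4
    have h6 : (1 : ℝ) ≤ |(v 0 : ℝ)| := by
      have : (1 : ℤ) ≤ |v 0| := Int.one_le_abs hv
      exact_mod_cast this
    nlinarith [z.im_pos]
  have h7 : (1 : ℝ) ≤ ‖(v 0 : ℂ) * (z : ℂ) + v 1‖ := hz.trans h3
  simp only [eisSummand, _root_.zpow_neg, norm_inv, norm_zpow]
  apply inv_anti₀ z.im_pos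
  refine h3.trans ?_
  obtain ⟨m, rfl⟩ : ∃ m : ℕ, k = m := ⟨k.toNat, by omega⟩
  rw [zpow_natCast]
  exact le_self_pow₀ h7 (by omega)

theorem tendsto_gEis_strip (ha : ∀ v, ‖a v‖ ≤ C) (hk : 3 ≤ k) (A : ℝ) :
    Tendsto (gEis a k) (atImInfty ⊓ 𝓟 {z : ℍ | |z.re| ≤ A}) (𝓝 (gEisLim a k)) := by
  unfold gEis gEisLim
  refine tendsto_tsum_of_dominated_convergence
    (summable_bound (C := C) hk (r ⟨⟨A, 1⟩, one_pos⟩ ^ (-k : ℝ))) ?_ ?_
  · intro v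
    by_cases hv : v 0 = 0
    · rw [if_pos hv]
      have : (fun z : ℍ => a v * eisSummand k v z) = fun _ => a v * (v 1 : ℂ) ^ (-k) := by
        ext z
        simp [eisSummand, hv]
      rw [this]
      exact tendsto_const_nhds
    · rw [if_neg hv]
      have := ((tendsto_eisSummand hk v hv).const_mul (a v)).mono_left
        (inf_le_left : atImInfty ⊓ 𝓟 {z : ℍ | |z.re| ≤ A} ≤ atImInfty)
      simpa using this
  · have h2 : ∀ᶠ z : ℍ in atImInfty, 1 ≤ z.im := by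
      rw [Filter.Eventually, atImInfty_mem]
      exact ⟨1, fun z hz => hz⟩
    have h3 : ∀ᶠ z : ℍ in atImInfty ⊓ 𝓟 {z : ℍ | |z.re| ≤ A}, |z.re| ≤ A :=
      Filter.Eventually.filter_mono inf_le_right (Filter.mem_principal_self _)
    filter_upwards [h2.filter_mono inf_le_left, h3] with z hz hz' v
    exact norm_term_le ha hk v one_pos ⟨hz', hz⟩

/-- The limit at `i∞` of a series which is periodic of period `w`. -/
theorem tendsto_gEis (ha : ∀ v, ‖a v‖ ≤ C) (hk : 3 ≤ k) {w : ℕ} (hw : 0 < w)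
    (hper : ∀ v, a (v ᵥ* ((ModularGroup.T ^ (w : ℤ) : SL(2, ℤ)) : Matrix (Fin 2) (Fin 2) ℤ)) = a v) :
    Tendsto (gEis a k) atImInfty (𝓝 (gEisLim a k)) := by
  have hper' : ∀ (n : ℤ) (v : Fin 2 → ℤ),
      a (v ᵥ* ((ModularGroup.T ^ ((w : ℤ) * n) : SL(2, ℤ)) : Matrix (Fin 2) (Fin 2) ℤ)) = a v := by
    intro n
    induction n using Int.induction_on with
    | zero => intro v; simp
    | succ n ih =>
      intro v
      rw [mul_add, mul_one, _root_.zpow_add, Matrix.SpecialLinearGroup.coe_mul, ← vecMul_vecMul, hper, ih]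
    | pred n ih =>
      intro v
      rw [← hper, vecMul_vecMul, ← Matrix.SpecialLinearGroup.coe_mul, ← _root_.zpow_add]
      have : (w : ℤ) * (-(n : ℤ) - 1) + w = w * (-(n : ℤ)) := by ring
      rw [this, ih]
  have h := tendsto_gEis_strip ha hk (w : ℝ)
  rw [tendsto_def] at h ⊢
  intro U hU
  have h1 := h U hU
  rw [Filter.mem_inf_principal, atImInfty_mem] at h1
  obtain ⟨B, hB⟩ := h1
  rw [atImInfty_mem]
  refine ⟨B, fun z hz => ?_⟩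
  obtain ⟨n, hn⟩ := ModularGroup_T_zpow_mem_verticalStrip z hw
  have h2 := hB _ (hz.trans hn.2) hn.1
  have h3 := gEis_T_zpow a k ((w : ℤ) * n) z
  simp only [hper'] at h3
  rw [Set.mem_preimage] at h2 ⊢
  rwa [h3] at h2

/-! ### Twisted Eisenstein series -/

section twisted

variable (Γ : Subgroup SL(2, ℤ)) (χ : Γ →* ℂˣ)

/-- `χ` is trivial on the elements of `Γ` with bottom row `(0, 1)`. -/
def TrivAtInfty : Prop :=
  ∀ γ : Γ, (γ : SL(2, ℤ)) 1 0 = 0 → (γ : SL(2, ℤ)) 1 1 = 1 → χ γ = 1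

open Classical in
/-- The coefficient function: `χ(γ)⁻¹` at the bottom row of `γ ∈ Γ`, zero elsewhere. -/
def twCoeff (v : Fin 2 → ℤ) : ℂ :=
  if h : ∃ γ : Γ, (γ : SL(2, ℤ)) 1 = v then (((χ h.choose)⁻¹ : ℂˣ) : ℂ) else 0

lemma row_mul (A B : SL(2, ℤ)) :
    (A * B) 1 = (A 1) ᵥ* (B : Matrix (Fin 2) (Fin 2) ℤ) := by
  show ((A * B : SL(2, ℤ)) : Matrix (Fin 2) (Fin 2) ℤ) 1 = _
  rw [Matrix.SpecialLinearGroup.coe_mul, Matrix.mul_apply_eq_vecMul]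

variable {Γ χ}

lemma chi_eq_of_row_eq (hinf : TrivAtInfty Γ χ) {γ γ' : Γ}
    (h : (γ : SL(2, ℤ)) 1 = (γ' : SL(2, ℤ)) 1) : χ γ = χ γ' := by
  have h1 : ((γ * γ'⁻¹ : Γ) : SL(2, ℤ)) 1 = ![0, 1] := by
    have h2 : ((γ * γ'⁻¹ : Γ) : SL(2, ℤ)) = (γ : SL(2, ℤ)) * (γ' : SL(2, ℤ))⁻¹ := rfl
    rw [h2, row_mul, h, ← row_mul, mul_inv_cancel]
    ext i
    fin_cases i <;> simp
  have h3 := hinf (γ * γ'⁻¹) (by rw [h1]; rfl) (by rw [h1]; rfl)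
  rw [map_mul, map_inv, mul_inv_eq_one] at h3
  exact h3

lemma twCoeff_row (hinf : TrivAtInfty Γ χ) (γ : Γ) :
    twCoeff Γ χ ((γ : SL(2, ℤ)) 1) = (((χ γ)⁻¹ : ℂˣ) : ℂ) := by
  have h : ∃ γ' : Γ, (γ' : SL(2, ℤ)) 1 = (γ : SL(2, ℤ)) 1 := ⟨γ, rfl⟩
  unfold twCoeff
  rw [dif_pos h, chi_eq_of_row_eq hinf h.choose_spec]

lemma twCoeff_of_not_row {v : Fin 2 → ℤ} (h : ¬ ∃ γ : Γ, (γ : SL(2, ℤ)) 1 = v) :
    twCoeff Γ χ v = 0 := by
  unfold twCoeff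
  rw [dif_neg h]

lemma twCoeff_vecMul (hinf : TrivAtInfty Γ χ) (γ : Γ) (v : Fin 2 → ℤ) :
    twCoeff Γ χ (v ᵥ* ((γ : SL(2, ℤ)) : Matrix (Fin 2) (Fin 2) ℤ)) =
      (((χ γ)⁻¹ : ℂˣ) : ℂ) * twCoeff Γ χ v := by
  by_cases h : ∃ γ' : Γ, (γ' : SL(2, ℤ)) 1 = v
  · obtain ⟨γ', rfl⟩ := h
    have h2 : ((γ' * γ : Γ) : SL(2, ℤ)) = (γ' : SL(2, ℤ)) * (γ : SL(2, ℤ)) := rfl
    rw [← row_mul, ← h2, twCoeff_row hinf, twCoeff_row hinf, map_mul, mul_inv, Units.val_mul, mul_comm]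
  · rw [twCoeff_of_not_row h, mul_zero, twCoeff_of_not_row]
    rintro ⟨γ', hγ'⟩
    apply h
    refine ⟨γ' * γ⁻¹, ?_⟩
    have h2 : ((γ' * γ⁻¹ : Γ) : SL(2, ℤ)) = (γ' : SL(2, ℤ)) * (γ : SL(2, ℤ))⁻¹ := rfl
    rw [h2, row_mul, hγ']
    exact (vecMulEquiv (γ : SL(2, ℤ))).left_inv v

lemma norm_twCoeff_le (hχ : ∀ γ, ‖((χ γ : ℂˣ) : ℂ)‖ = 1) (v : Fin 2 → ℤ) :
    ‖twCoeff Γ χ v‖ ≤ 1 := by
  unfold twCoeff
  split_ifs with h
  · rw [Units.val_inv_eq_inv_val, norm_inv, hχ, inv_one]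
  · simp

variable (Γ χ)

/-- The twisted Eisenstein series `∑_{Γ_∞ \ Γ} χ(γ)⁻¹ (c z + d)^(-k)` (sum over bottom rows). -/
def twEis (k : ℤ) : ℍ → ℂ := gEis (twCoeff Γ χ) k

variable {Γ χ}

theorem twEis_smul (hinf : TrivAtInfty Γ χ) (k : ℤ) (γ : Γ) (z : ℍ) :
    twEis Γ χ k ((γ : SL(2, ℤ)) • z) =
      ((χ γ : ℂˣ) : ℂ) * denom (γ : SL(2, ℤ)) z ^ k * twEis Γ χ k z := by
  unfold twEis
  rw [gEis_smul]
  have h1 : (fun v : Fin 2 → ℤ => twCoeff Γ χ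
      (v ᵥ* (((γ : SL(2, ℤ))⁻¹ : SL(2, ℤ)) : Matrix (Fin 2) (Fin 2) ℤ))) =
      fun v => ((χ γ : ℂˣ) : ℂ) * twCoeff Γ χ v := by
    ext v
    have := twCoeff_vecMul hinf γ⁻¹ v
    rw [map_inv, inv_inv] at this
    exact this
  rw [h1]
  unfold gEis
  simp_rw [mul_assoc]
  rw [tsum_mul_left]
  ring

theorem twEis_slash (hinf : TrivAtInfty Γ χ) (k : ℤ) (γ : Γ) :
    twEis Γ χ k ∣[k] (γ : SL(2, ℤ)) = ((χ γ : ℂˣ) : ℂ) • twEis Γ χ k := by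
  ext z
  rw [SL_slash_apply, twEis_smul hinf, Pi.smul_apply, smul_eq_mul, _root_.zpow_neg]
  have := zpow_ne_zero k (denom_ne_zero ((γ : SL(2, ℤ)) : GL (Fin 2) ℝ) z)
  field_simp

theorem mdifferentiable_twEis (hχ : ∀ γ, ‖((χ γ : ℂˣ) : ℂ)‖ = 1) (hk : 3 ≤ k) :
    MDiff (twEis Γ χ k) :=
  mdifferentiable_gEis (norm_twCoeff_le hχ) hk

theorem isBoundedAtImInfty_twEis_slash (hχ : ∀ γ, ‖((χ γ : ℂˣ) : ℂ)‖ = 1) (hk : 3 ≤ k)
    (A : SL(2, ℤ)) : IsBoundedAtImInfty (twEis Γ χ k ∣[k] A) :=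
  isBoundedAtImInfty_gEis_slash (norm_twCoeff_le hχ) hk A

/-- a bottom row with first entry `0` is `(0, ±1)`. -/
lemma row_eq_of_zero (A : SL(2, ℤ)) (h : A 1 0 = 0) : A 1 = ![0, 1] ∨ A 1 = ![0, -1] := by
  have hdet := Matrix.SpecialLinearGroup.det_coe A
  rw [Matrix.det_fin_two] at hdet
  have h' : (A : Matrix (Fin 2) (Fin 2) ℤ) 1 0 = 0 := h
  rw [h', mul_zero, sub_zero] at hdet
  have h1 : IsUnit ((A : Matrix (Fin 2) (Fin 2) ℤ) 1 1) := IsUnit.of_mul_eq_one _ (by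
    rw [mul_comm]; exact hdet)
  rcases Int.isUnit_iff.1 h1 with h2 | h2
  · left
    ext i
    fin_cases i
    · exact h
    · exact h2
  · right
    ext i
    fin_cases i
    · exact h
    · exact h2

lemma gEisLim_twCoeff (hinf : TrivAtInfty Γ χ) (k : ℤ) :
    gEisLim (twCoeff Γ χ) k = 1 + twCoeff Γ χ ![0, -1] * (-1 : ℂ) ^ (-k) := by
  unfold gEisLim
  have hne : (![0, 1] : Fin 2 → ℤ) ≠ ![0, -1] := by
    intro h
    have := congrFun h 1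
    simp at this
  rw [tsum_eq_sum (s := {![0, 1], ![0, -1]})]
  · rw [Finset.sum_pair hne]
    have h1 : twCoeff Γ χ ![0, 1] = 1 := by
      have h2 := twCoeff_row hinf (1 : Γ)
      have h3 : (((1 : Γ) : SL(2, ℤ)) 1 : Fin 2 → ℤ) = ![0, 1] := by
        ext i
        fin_cases i <;> simp
      rw [h3] at h2
      simpa using h2
    simp [h1]
  · intro v hv
    by_cases hv0 : v 0 = 0
    · rw [if_pos hv0, twCoeff_of_not_row, zero_mul]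
      rintro ⟨γ, rfl⟩
      apply hv
      rcases row_eq_of_zero _ hv0 with h | h <;> simp [h]
    · rw [if_neg hv0]

/-- The limit at `i∞` of the twisted Eisenstein series. -/
theorem tendsto_twEis (hχ : ∀ γ, ‖((χ γ : ℂˣ) : ℂ)‖ = 1) (hinf : TrivAtInfty Γ χ) (hk : 3 ≤ k)
    {w : ℕ} (hw : 0 < w) (hT : ModularGroup.T ^ (w : ℤ) ∈ Γ) :
    Tendsto (twEis Γ χ k) atImInfty (𝓝 (1 + twCoeff Γ χ ![0, -1] * (-1 : ℂ) ^ (-k))) := by
  rw [← gEisLim_twCoeff hinf]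
  refine tendsto_gEis (norm_twCoeff_le hχ) hk hw ?_
  intro v
  have h1 := twCoeff_vecMul hinf ⟨_, hT⟩ v
  have h2 : χ ⟨_, hT⟩ = 1 := by
    apply hinf
    · show (ModularGroup.T ^ (w : ℤ) : SL(2, ℤ)) 1 0 = 0
      rw [ModularGroup.coe_T_zpow]
      simp
    · show (ModularGroup.T ^ (w : ℤ) : SL(2, ℤ)) 1 1 = 1
      rw [ModularGroup.coe_T_zpow]
      simp
  rw [h2] at h1
  simpa using h1

/-- If `χ` is trivial on all elements of `Γ` fixing `∞` and `k` is even, the limit is non zero. -/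
theorem exists_tendsto_twEis (hχ : ∀ γ, ‖((χ γ : ℂˣ) : ℂ)‖ = 1)
    (hinf : ∀ γ : Γ, (γ : SL(2, ℤ)) 1 0 = 0 → χ γ = 1) (hk : 3 ≤ k) (hk2 : Even k)
    {w : ℕ} (hw : 0 < w) (hT : ModularGroup.T ^ (w : ℤ) ∈ Γ) :
    ∃ L : ℂ, L ≠ 0 ∧ Tendsto (twEis Γ χ k) atImInfty (𝓝 L) := by
  have hinf' : TrivAtInfty Γ χ := fun γ h _ => hinf γ h
  refine ⟨_, ?_, tendsto_twEis hχ hinf' hk hw hT⟩
  rw [Even.neg_one_zpow hk2.neg, mul_one]
  by_cases h : ∃ γ : Γ, (γ : SL(2, ℤ)) 1 = ![0, -1]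
  · obtain ⟨γ, hγ⟩ := h
    rw [← hγ, twCoeff_row hinf', hinf γ (by rw [hγ]; rfl)]
    norm_num
  · rw [twCoeff_of_not_row h]
    norm_num

theorem twEis_ne_zero (hχ : ∀ γ, ‖((χ γ : ℂˣ) : ℂ)‖ = 1)
    (hinf : ∀ γ : Γ, (γ : SL(2, ℤ)) 1 0 = 0 → χ γ = 1) (hk : 3 ≤ k) (hk2 : Even k)
    {w : ℕ} (hw : 0 < w) (hT : ModularGroup.T ^ (w : ℤ) ∈ Γ) :
    twEis Γ χ k ≠ 0 := by
  obtain ⟨L, hL, h⟩ := exists_tendsto_twEis hχ hinf hk hk2 hw hT
  intro h0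
  rw [h0] at h
  exact hL (tendsto_nhds_unique h tendsto_const_nhds)

/-- periodicity of the slashes at the other cusps. -/
theorem twEis_slash_slash (hinf : TrivAtInfty Γ χ) (k : ℤ) (g t : SL(2, ℤ))
    (ht : g * t * g⁻¹ ∈ Γ) (hχt : χ ⟨_, ht⟩ = 1) :
    (twEis Γ χ k ∣[k] g) ∣[k] t = twEis Γ χ k ∣[k] g := by
  have h1 := twEis_slash hinf k ⟨_, ht⟩
  rw [hχt, Units.val_one, one_smul] at h1
  have h2 : g * t = (g * t * g⁻¹) * g := by group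
  rw [← SlashAction.slash_mul, h2, SlashAction.slash_mul]
  exact congrArg (· ∣[k] g) h1

end twisted

/-! ### Powers are modular forms -/

section power

lemma pow_slash (f : ℍ → ℂ) (k : ℤ) (m : ℕ) (A : SL(2, ℤ)) :
    (fun z => f z ^ m) ∣[k * m] A = fun z => (f ∣[k] A) z ^ m := by
  ext z
  rw [SL_slash_apply, SL_slash_apply, mul_pow, ← zpow_natCast (denom _ z ^ (-k)), ← _root_.zpow_mul]
  congr 2
  ring

lemma isBoundedAtImInfty_pow {f : ℍ → ℂ} (hf : IsBoundedAtImInfty f) (m : ℕ) :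
    IsBoundedAtImInfty (fun z => f z ^ m) := by
  induction m with
  | zero =>
    simp only [pow_zero]
    exact Filter.const_boundedAtFilter _ _
  | succ n ih =>
    simp only [pow_succ]
    exact ih.mul hf

lemma exists_T_zpow_mem (Γ : Subgroup SL(2, ℤ)) [Γ.FiniteIndex] :
    ∃ w : ℕ, 0 < w ∧ ModularGroup.T ^ (w : ℤ) ∈ Γ := by
  obtain ⟨n, hn, -, h⟩ := Subgroup.exists_pow_mem_of_index_ne_zero
    (Subgroup.FiniteIndex.index_ne_zero (H := Γ)) ModularGroup.T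
  exact ⟨n, hn, by rwa [zpow_natCast]⟩

variable {Γ : Subgroup SL(2, ℤ)} [Γ.FiniteIndex] {χ : Γ →* ℂˣ}

omit [Γ.FiniteIndex] in
lemma norm_eq_one_of_pow {m : ℕ} (hm : 0 < m) (hχm : ∀ γ, χ γ ^ m = 1) (γ : Γ) :
    ‖((χ γ : ℂˣ) : ℂ)‖ = 1 := by
  apply Complex.norm_eq_one_of_pow_eq_one (n := m) _ hm.ne'
  rw [← Units.val_pow_eq_pow_val, hχm, Units.val_one]

/-- The `m`-th power of the twisted Eisenstein series of a character of order dividing `m` is a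
non zero modular form of weight `k * m` on `Γ`. -/
theorem exists_modularForm_twEis_pow {m : ℕ} (hm : 0 < m) (hχm : ∀ γ, χ γ ^ m = 1)
    (hinf : ∀ γ : Γ, (γ : SL(2, ℤ)) 1 0 = 0 → χ γ = 1) (hk : 3 ≤ k) (hk2 : Even k) :
    ∃ F : ModularForm (Γ : Subgroup (GL (Fin 2) ℝ)) (k * m),
      (∀ z, F z = twEis Γ χ k z ^ m) ∧ F ≠ 0 := by
  have hχ := norm_eq_one_of_pow hm hχm
  have hinf' : TrivAtInfty Γ χ := fun γ h _ => hinf γ h
  let F : ModularForm (Γ : Subgroup (GL (Fin 2) ℝ)) (k * m) :=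
    { toFun := fun z => twEis Γ χ k z ^ m
      slash_action_eq' := by
        intro A hA
        obtain ⟨A, hA, rfl⟩ := hA
        show (fun z => twEis Γ χ k z ^ m) ∣[k * m] (A : SL(2, ℤ)) = _
        rw [pow_slash]
        ext z
        have h1 := twEis_slash hinf' k ⟨A, hA⟩
        have h2 : (twEis Γ χ k ∣[k] A) z = ((χ ⟨A, hA⟩ : ℂˣ) : ℂ) * twEis Γ χ k z :=
          congrFun h1 z
        rw [h2, mul_pow, ← Units.val_pow_eq_pow_val, hχm, Units.val_one, one_mul]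
      holo' := by
        have h := mdifferentiable_twEis (k := k) hχ hk
        exact h.pow m
      bdd_at_cusps' := by
        intro c hc
        rw [Subgroup.IsArithmetic.isCusp_iff_isCusp_SL2Z] at hc
        rw [OnePoint.isBoundedAt_iff_forall_SL2Z hc]
        intro γ _
        rw [pow_slash]
        exact isBoundedAtImInfty_pow (isBoundedAtImInfty_twEis_slash hχ hk γ) m }
  refine ⟨F, fun z => rfl, ?_⟩
  obtain ⟨w, hw, hT⟩ := exists_T_zpow_mem Γ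
  have hne := twEis_ne_zero hχ hinf hk hk2 hw hT
  intro h0
  apply hne
  ext z
  have h1 : F z = 0 := by rw [h0]; rfl
  exact pow_eq_zero_iff hm.ne' |>.1 h1

end power

end

end Fermat.Agent.GAL.Tors.TwistedEis
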