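import Mathlib
import Fermat.Agent.GAL.Tors.Betti
import Fermat.Agent.GAL.Tors.BC
import Fermat.Agent.GAL.Tors.Dict.Da
import Fermat.Agent.GAL.Tors.Dict.Dc
import Fermat.Agent.GAL.Tors.Dict.Dd
import Fermat.Agent.GAL.Tors.Desc.Main

set_option autoImplicit false

/-!
# GAL-TORS: the statements consumed from blocks DICT and DESC (sub-leads helper24, helper7)

DICT = dictionary between places of `F_ℂ(N)` and points of `ℍ ∪ cusps`.
DESC = descent from `ℂ` to `ℚ̄`.
The proofs live in `GAL/Tors/Dict/*`, `GAL/Tors/Desc/*`; this file only fixes the interface.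
-/

noncomputable section

namespace Fermat.Agent.GAL.Tors

open CongruenceSubgroup ModularCurve Fermat.Agent.S24
open scoped MatrixGroups

variable (N : ℕ) [NeZero N]

/-! ### DICT -/

/-- (D0) modular functions are `Γ₀(N)`-invariant. -/
theorem compSL_PsiMer (γ : Gamma0 N) (x : FF ℂ N) :
    compSL (γ : SL(2, ℤ)) (PsiMer N x) = PsiMer N x :=
  Dict.compSL_PsiMer N γ x

/-- (Da) a Kummer unit has an `m`-th root in `Mer`; its character kills elliptic and parabolic
elements. -/
theorem exists_hasChar (m : ℕ) [NeZero m] (u : (FF ℂ N)ˣ) (hu : u ∈ kummerUnits ℂ (FF ℂ N) m) :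
    ∃ χ : Gamma0 N →* rootsOfUnity m ℂ, HasChar N m u χ ∧ NeTrivial χ :=
  Dict.exists_hasChar N m u hu

/-- (Dc) trivial character: the root is a modular function. -/
theorem exists_root_of_hasChar_one (m : ℕ) [NeZero m] (u : (FF ℂ N)ˣ) (h : HasChar N m u 1) :
    ∃ y : (FF ℂ N)ˣ, y ^ m = u :=
  Dict.exists_root_of_hasChar_one N m u h

/-- (Dd) every character killing elliptic and parabolic elements occurs. -/
theorem exists_kummerUnit_of_neTrivial (m : ℕ) [NeZero m] (χ : Gamma0 N →* rootsOfUnity m ℂ)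
    (hχ : NeTrivial χ) : ∃ u ∈ kummerUnits ℂ (FF ℂ N) m, HasChar N m u χ :=
  Dict.exists_kummerUnit_of_neTrivial N m χ hχ

/-! ### DESC -/

/-- (E1) base change preserves Kummer units. -/
theorem bc_mem_kummerUnits (m : ℕ) (u : (FF Kbar N)ˣ) (hu : u ∈ kummerUnits Kbar (FF Kbar N) m) :
    Units.map (bcHom N : FF Kbar N →* FF ℂ N) u ∈ kummerUnits ℂ (FF ℂ N) m :=
  Fermat.Agent.GAL.Desc.bc_mem_kummerUnits iota (modularFunctionFieldFull N) m u hu

/-- Base change on the Kummer models. -/
def bcKV (m : ℕ) : KV Kbar (FF Kbar N) m →+ KV ℂ (FF ℂ N) m :=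
  KV.map (Units.map (bcHom N : FF Kbar N →* FF ℂ N)) (bc_mem_kummerUnits N m)

theorem bcKV_eq (m : ℕ) :
    bcKV N m = Fermat.Agent.GAL.Desc.bcKV iota (modularFunctionFieldFull N) m := rfl

/-- (E2) **descent**: base change is bijective on the Kummer models
(the finiteness hypothesis is supplied by `exists_kappa` and `exists_charOf`). -/
theorem bijective_bcKV (m : ℕ) [NeZero m] (hfin : Finite (KV ℂ (FF ℂ N) m)) :
    Function.Bijective (bcKV N m) :=
  Fermat.Agent.GAL.Desc.bcKV_bijective_modular N (NeZero.ne m) hfin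

end Fermat.Agent.GAL.Tors
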