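import Mathlib
import Fermat.Agent.GAL.Tors.Betti

set_option autoImplicit false

/-!
# GAL-TORS, block T3: the multiplicative Hecke operator in `Mer` and its effect on characters

Input from GAL-HECKE: `HStar L N ℓ`, the `q`-expansion formula for `heckeNorm`.
Output: `HasChar.hecke`.
-/

noncomputable section

namespace Fermat.Agent.GAL.Tors

open CongruenceSubgroup ModularCurve Matrix.SpecialLinearGroup Fermat.Agent.S24
open scoped MatrixGroups Real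

open P2MW.S_ModularForm_heckeT_slash_eq_self_of_mem_Gamma0.ModularForm.HeckeSlashInvariance

/-- **(H-star)**, supplied by GAL-HECKE:
`(T_ℓ f)(q^ℓ) = f(q^{ℓ²}) ∏_{i<ℓ} f(ζ^i q)`. -/
def HStar (L : Type*) [Field L] [Algebra ℚ L] (N ℓ : ℕ) [NeZero N] [NeZero ℓ] : Prop :=
  ∀ ζ : L, IsPrimitiveRoot ζ ℓ → ∀ f : FF L N,
    qExpand L ℓ ((heckeNorm L N ℓ f : FF L N) : LaurentSeries L) =
      qExpand L (ℓ ^ 2) (f : LaurentSeries L) *
        ∏ i ∈ Finset.range ℓ, twistFun (ζ ^ i) (f : LaurentSeries L)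

/-! ### Ring endomorphisms of `ℂ((q))` preserving convergence -/

theorem map_mem_MerQ (φ : LaurentSeries ℂ →+* LaurentSeries ℂ)
    (hφ : ∀ x, IsConv x → IsConv (φ x)) {x : LaurentSeries ℂ} (hx : x ∈ MerQ) : φ x ∈ MerQ := by
  obtain ⟨a, b, ha, hb, hb0, h⟩ := hx
  exact ⟨φ a, φ b, hφ a ha, hφ b hb, (map_ne_zero φ).mpr hb0, by rw [← map_mul, h]⟩

/-- The endomorphism of `MerQ` induced by an endomorphism of `ℂ((q))` preserving convergence. -/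
def mapMerQ (φ : LaurentSeries ℂ →+* LaurentSeries ℂ) (hφ : ∀ x, IsConv x → IsConv (φ x)) :
    MerQ →+* MerQ where
  toFun x := ⟨φ x, map_mem_MerQ φ hφ x.2⟩
  map_one' := Subtype.ext (map_one φ)
  map_mul' _ _ := Subtype.ext (map_mul φ _ _)
  map_zero' := Subtype.ext (map_zero φ)
  map_add' _ _ := Subtype.ext (map_add φ _ _)

theorem PsiQ_mapMerQ (φ : LaurentSeries ℂ →+* LaurentSeries ℂ)
    (hφ : ∀ x, IsConv x → IsConv (φ x)) (g : GL (Fin 2) ℝ) (hg : 0 < g.det.val)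
    (h : ∀ x, IsConv x → ∀ τ : UpperHalfPlane,
      evalAt (Function.Periodic.qParam 1 (τ : ℂ)) (φ x)
        = evalAt (Function.Periodic.qParam 1 ((g • τ : UpperHalfPlane) : ℂ)) x) (x : MerQ) :
    PsiQ (mapMerQ φ hφ x) = compGL g hg (PsiQ x) := by
  have key : PsiQ.comp (mapMerQ φ hφ) = (compGL g hg).comp PsiQ := by
    apply IsFractionRing.ringHom_ext (A := convSubring)
    intro a
    rw [RingHom.comp_apply, RingHom.comp_apply, PsiQ_conv, compGL_ofHolo]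
    have e : mapMerQ φ hφ (algebraMap convSubring MerQ a)
        = algebraMap convSubring MerQ ⟨φ a, hφ a a.2⟩ := rfl
    rw [e, PsiQ_conv]
    congr 1
    ext τ
    exact h a a.2 τ
  exact DFunLike.congr_fun key x

/-! ### (T3a) `q ↦ q^d` -/

theorem qExpand_mem_MerQ (d : ℕ) [NeZero d] {x : LaurentSeries ℂ} (hx : x ∈ MerQ) :
    qExpand ℂ d x ∈ MerQ :=
  map_mem_MerQ (qExpand ℂ d) (fun _ h => h.qExpand d) hx

theorem PsiQ_qExpand (d : ℕ) [NeZero d] (x : MerQ) :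
    PsiQ ⟨qExpand ℂ d (x : LaurentSeries ℂ), qExpand_mem_MerQ d x.2⟩ =
      compGL (ModularForm.heckeDiagMatrix d) (ModularForm.det_heckeDiagMatrix_pos d) (PsiQ x) := by
  refine PsiQ_mapMerQ (qExpand ℂ d) (fun _ h => h.qExpand d) _ _ (fun a _ τ => ?_) x
  rw [evalAt_qExpand, ModularForm.coe_heckeDiagMatrix_smul (NeZero.ne d)]
  congr 1
  simp only [Function.Periodic.qParam]
  rw [← Complex.exp_nat_mul]
  congr 1
  simp only [Complex.ofReal_one, div_one]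
  ring

/-! ### (T3b) `q ↦ ζ q` -/

theorem twistFun_mem_MerQ {ζ : ℂ} (hζ : ‖ζ‖ = 1) {x : LaurentSeries ℂ} (hx : x ∈ MerQ) :
    twistFun ζ x ∈ MerQ := by
  have h0 : ζ ≠ 0 := fun h => by simp [h] at hζ
  exact map_mem_MerQ (twist ζ h0) (fun _ h => h.twist h0 hζ.le) hx

theorem norm_exp_two_pi_div (ℓ i : ℕ) :
    ‖Complex.exp (2 * π * Complex.I * i / ℓ)‖ = 1 := by
  have : (2 * π * Complex.I * i / ℓ : ℂ) = ((2 * π * i / ℓ : ℝ) : ℂ) * Complex.I := by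
    push_cast; ring
  rw [this, Complex.norm_exp_ofReal_mul_I]

theorem det_heckeMatrix_mul_diag_pos (ℓ i : ℕ) :
    0 < (ModularForm.heckeMatrix ℓ i * ModularForm.heckeDiagMatrix ℓ).det.val := by
  rw [map_mul, Units.val_mul]
  exact mul_pos (ModularForm.det_heckeMatrix_pos ℓ i) (ModularForm.det_heckeDiagMatrix_pos ℓ)

/-- `f(ζ^i q)` is `τ ↦ f(τ + i/ℓ) = f ((ℓ τ + i)/ℓ)`. -/
theorem PsiQ_twistFun (ℓ : ℕ) [NeZero ℓ] (i : ℕ) (x : MerQ) :
    PsiQ ⟨twistFun (Complex.exp (2 * π * Complex.I * i / ℓ)) (x : LaurentSeries ℂ),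
        twistFun_mem_MerQ (norm_exp_two_pi_div ℓ i) x.2⟩ =
      compGL (ModularForm.heckeMatrix ℓ i * ModularForm.heckeDiagMatrix ℓ)
        (det_heckeMatrix_mul_diag_pos ℓ i) (PsiQ x) := by
  have h0 : Complex.exp (2 * π * Complex.I * i / ℓ) ≠ 0 := Complex.exp_ne_zero _
  refine PsiQ_mapMerQ (twist _ h0) (fun _ h => h.twist h0 (norm_exp_two_pi_div ℓ i).le) _ _
    (fun a _ τ => ?_) x
  rw [evalAt_twist, mul_smul, ModularForm.coe_heckeMatrix_smul (NeZero.ne ℓ),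
    ModularForm.coe_heckeDiagMatrix_smul (NeZero.ne ℓ)]
  congr 1
  simp only [Function.Periodic.qParam]
  rw [← Complex.exp_add]
  congr 1
  have hℓ : (ℓ : ℂ) ≠ 0 := Nat.cast_ne_zero.mpr (NeZero.ne ℓ)
  simp only [Complex.ofReal_one, div_one]
  field_simp
  ring

/-! ### (T3c) `heckeNorm` in `Mer` -/

theorem det_heckeRep_pos (ℓ : ℕ) (x : OnePoint (ZMod ℓ)) : 0 < (heckeRep ℓ x).det.val := by
  induction x using OnePoint.rec with
  | infty => exact ModularForm.det_heckeDiagMatrix_pos ℓ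
  | coe j => exact ModularForm.det_heckeMatrix_pos ℓ j.val

theorem compGL_congr {g g' : GL (Fin 2) ℝ} (h : g = g') (hg : 0 < g.det.val)
    (hg' : 0 < g'.det.val) (x : Mer) : compGL g hg x = compGL g' hg' x := by
  subst h; rfl

theorem prod_range_eq_prod_zmod {ℓ : ℕ} [NeZero ℓ] {M : Type*} [CommMonoid M] (F : ℕ → M) :
    ∏ j ∈ Finset.range ℓ, F j = ∏ x : ZMod ℓ, F x.val := by
  refine Finset.prod_nbij' (fun j : ℕ ↦ (j : ZMod ℓ)) (fun x : ZMod ℓ ↦ x.val)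
    (fun _ _ ↦ Finset.mem_univ _) (fun x _ ↦ Finset.mem_range.mpr x.val_lt) (fun j hj ↦ ?_)
    (fun x _ ↦ ?_) (fun j hj ↦ ?_)
  · exact ZMod.val_cast_of_lt (Finset.mem_range.mp hj)
  · exact ZMod.natCast_zmod_val x
  · rw [ZMod.val_cast_of_lt (Finset.mem_range.mp hj)]

theorem prod_onePoint_heckeRep {ℓ : ℕ} [NeZero ℓ] (y : Mer) :
    ∏ x : OnePoint (ZMod ℓ), compGL (heckeRep ℓ x) (det_heckeRep_pos ℓ x) y =
      compGL (ModularForm.heckeDiagMatrix ℓ) (ModularForm.det_heckeDiagMatrix_pos ℓ) y *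
        ∏ i ∈ Finset.range ℓ,
          compGL (ModularForm.heckeMatrix ℓ i) (ModularForm.det_heckeMatrix_pos ℓ i) y := by
  rw [prod_range_eq_prod_zmod (ℓ := ℓ) (fun i =>
    compGL (ModularForm.heckeMatrix ℓ i) (ModularForm.det_heckeMatrix_pos ℓ i) y)]
  exact Fintype.prod_option
    (fun x : OnePoint (ZMod ℓ) => compGL (heckeRep ℓ x) (det_heckeRep_pos ℓ x) y)

variable {N : ℕ} [NeZero N] {ℓ : ℕ} [NeZero ℓ]

/-- `Ψ(T_ℓ f)(τ) = Ψ f(ℓ τ) ∏_{i<ℓ} Ψ f((τ+i)/ℓ)`. -/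
theorem PsiMer_heckeNorm (hstar : HStar ℂ N ℓ) (f : FF ℂ N) :
    PsiMer N (heckeNorm ℂ N ℓ f) =
      ∏ x : OnePoint (ZMod ℓ), compGL (heckeRep ℓ x) (det_heckeRep_pos ℓ x) (PsiMer N f) := by
  set D := compGL (ModularForm.heckeDiagMatrix ℓ) (ModularForm.det_heckeDiagMatrix_pos ℓ) with hD
  apply D.injective
  set fQ : MerQ := ⟨f, FF_le_MerQ N f.2⟩ with hfQ
  have hζ : IsPrimitiveRoot (Complex.exp (2 * π * Complex.I / ℓ)) ℓ :=
    Complex.isPrimitiveRoot_exp ℓ (NeZero.ne ℓ)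
  have hpow : ∀ i : ℕ, Complex.exp (2 * π * Complex.I / ℓ) ^ i
      = Complex.exp (2 * π * Complex.I * i / ℓ) := by
    intro i
    rw [← Complex.exp_nat_mul]
    congr 1
    ring
  have h1 := hstar _ hζ f
  have hsq : qExpand ℂ (ℓ ^ 2) (f : LaurentSeries ℂ) = qExpand ℂ ℓ (qExpand ℂ ℓ (f : LaurentSeries ℂ)) := by
    have : NeZero (ℓ * ℓ) := ⟨mul_ne_zero (NeZero.ne ℓ) (NeZero.ne ℓ)⟩
    rw [qExpand_qExpand]
    exact qExpand_congr (pow_two ℓ) _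
  -- the identity in `MerQ`
  have h2 : (⟨qExpand ℂ ℓ ((heckeNorm ℂ N ℓ f : FF ℂ N) : LaurentSeries ℂ),
        qExpand_mem_MerQ ℓ (FF_le_MerQ N (heckeNorm ℂ N ℓ f).2)⟩ : MerQ) =
      ⟨qExpand ℂ ℓ (qExpand ℂ ℓ (f : LaurentSeries ℂ)),
        qExpand_mem_MerQ ℓ (qExpand_mem_MerQ ℓ fQ.2)⟩ *
      ∏ i ∈ Finset.range ℓ,
        (⟨twistFun (Complex.exp (2 * π * Complex.I * i / ℓ)) (f : LaurentSeries ℂ),
          twistFun_mem_MerQ (norm_exp_two_pi_div ℓ i) fQ.2⟩ : MerQ) := by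
    apply Subtype.ext
    have hprod : ((∏ i ∈ Finset.range ℓ,
        (⟨twistFun (Complex.exp (2 * π * Complex.I * i / ℓ)) (f : LaurentSeries ℂ),
          twistFun_mem_MerQ (norm_exp_two_pi_div ℓ i) fQ.2⟩ : MerQ) : MerQ) : LaurentSeries ℂ)
        = ∏ i ∈ Finset.range ℓ,
          twistFun (Complex.exp (2 * π * Complex.I * i / ℓ)) (f : LaurentSeries ℂ) :=
      map_prod MerQ.val _ _
    rw [MulMemClass.coe_mul, hprod]
    show qExpand ℂ ℓ ((heckeNorm ℂ N ℓ f : FF ℂ N) : LaurentSeries ℂ) = _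
    rw [h1, hsq]
    congr 1
    exact Finset.prod_congr rfl fun i _ => by rw [hpow]
  have h3 : D (PsiMer N (heckeNorm ℂ N ℓ f)) =
      PsiQ ⟨qExpand ℂ ℓ ((heckeNorm ℂ N ℓ f : FF ℂ N) : LaurentSeries ℂ),
        qExpand_mem_MerQ ℓ (FF_le_MerQ N (heckeNorm ℂ N ℓ f).2)⟩ := by
    rw [PsiMer_eq]
    exact (PsiQ_qExpand ℓ ⟨_, FF_le_MerQ N (heckeNorm ℂ N ℓ f).2⟩).symm
  rw [h3, h2, map_mul, map_prod, prod_onePoint_heckeRep, map_mul, map_prod]
  congr 1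
  · have e1 := PsiQ_qExpand ℓ ⟨qExpand ℂ ℓ (f : LaurentSeries ℂ), qExpand_mem_MerQ ℓ fQ.2⟩
    have e2 := PsiQ_qExpand ℓ fQ
    rw [e1, e2]
    rfl
  · refine Finset.prod_congr rfl fun i _ => ?_
    have e1 := PsiQ_twistFun ℓ i fQ
    rw [e1, hD, compGL_compGL _ _ _ _ (det_heckeMatrix_mul_diag_pos ℓ i)]
    rfl

/-! ### (T3d) the character of `T_ℓ u` -/

/-- If `u` has character `χ` then `T_ℓ u` has character `γ ↦ ∏_x χ(γ'_x)`. -/
theorem HasChar.hecke (hstar : HStar ℂ N ℓ) {m : ℕ} {u : (FF ℂ N)ˣ}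
    {χ χ' : Gamma0 N →* rootsOfUnity m ℂ} (h : HasChar N m u χ)
    (hχ' : ∀ γ : Gamma0 N, ∃ D : HeckeDecomp N ℓ γ, χ' γ = ∏ y, χ (D.γ' y)) :
    HasChar N m (Units.map (heckeNorm ℂ N ℓ) u) χ' := by
  obtain ⟨h, hm, hγ⟩ := h
  refine ⟨∏ x : OnePoint (ZMod ℓ), compGL (heckeRep ℓ x) (det_heckeRep_pos ℓ x) h, ?_, ?_⟩
  · rw [← Finset.prod_pow]
    simp only [← map_pow, hm]
    exact (PsiMer_heckeNorm hstar (u : FF ℂ N)).symm
  · intro γ
    obtain ⟨D, hD⟩ := hχ' γ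
    have step : ∀ x : OnePoint (ZMod ℓ),
        compSL (γ : SL(2, ℤ)) (compGL (heckeRep ℓ x) (det_heckeRep_pos ℓ x) h) =
          algebraMap ℂ Mer (((χ (D.γ' x) : rootsOfUnity m ℂ) : ℂˣ) : ℂ) *
            compGL (heckeRep ℓ (D.σ x)) (det_heckeRep_pos ℓ (D.σ x)) h := by
      intro x
      have hpos1 : 0 < (heckeRep ℓ x * mapGL ℝ (γ : SL(2, ℤ))).det.val := by
        rw [map_mul, Units.val_mul]
        exact mul_pos (det_heckeRep_pos ℓ x) (det_mapGL_pos _)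
      have hpos2 : 0 < (mapGL ℝ (D.γ' x : SL(2, ℤ)) * heckeRep ℓ (D.σ x)).det.val := by
        rw [map_mul, Units.val_mul]
        exact mul_pos (det_mapGL_pos _) (det_heckeRep_pos ℓ _)
      have e1 : compSL (γ : SL(2, ℤ)) (compGL (heckeRep ℓ x) (det_heckeRep_pos ℓ x) h)
          = compGL (heckeRep ℓ x * mapGL ℝ (γ : SL(2, ℤ))) hpos1 h :=
        compGL_compGL _ _ _ _ hpos1 h
      have e2 : compGL (heckeRep ℓ (D.σ x)) (det_heckeRep_pos ℓ (D.σ x))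
          (compSL (D.γ' x : SL(2, ℤ)) h)
          = compGL (mapGL ℝ (D.γ' x : SL(2, ℤ)) * heckeRep ℓ (D.σ x)) hpos2 h :=
        compGL_compGL _ _ _ _ hpos2 h
      rw [e1, compGL_congr (D.rel x) hpos1 hpos2, ← e2, hγ, map_mul, compGL_algebraMap]
    rw [map_prod]
    simp only [step]
    rw [Finset.prod_mul_distrib, Equiv.prod_comp D.σ
      (fun x => compGL (heckeRep ℓ x) (det_heckeRep_pos ℓ x) h), hD, ← map_prod]
    congr 2
    simp

end Fermat.Agent.GAL.Tors
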