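import Mathlib
import Fermat.Agent.GAL.Tors.HeckeMer
import Fermat.Agent.GAL.Tors.BC

set_option autoImplicit false

/-!
# GAL-TORS: Hecke equivariance of the character, using only `heckeNorm` over `ℚ̄`

Variants of `PsiMer_heckeNorm` and `HasChar.hecke` which need (H-star) only over `Kbar`.
-/

noncomputable section

namespace Fermat.Agent.GAL.Tors

open CongruenceSubgroup ModularCurve Matrix.SpecialLinearGroup Fermat.Agent.S24
open scoped MatrixGroups Real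

open P2MW.S_ModularForm_heckeT_slash_eq_self_of_mem_Gamma0.ModularForm.HeckeSlashInvariance

variable {N : ℕ} [NeZero N] {ℓ : ℕ} [NeZero ℓ]

/-- `PsiMer_heckeNorm` for any pair `(g, f)` satisfying the (H-star) identity. -/
theorem PsiMer_of_hstar (g f : FF ℂ N)
    (h1 : qExpand ℂ ℓ (g : LaurentSeries ℂ) =
      qExpand ℂ (ℓ ^ 2) (f : LaurentSeries ℂ) *
        ∏ i ∈ Finset.range ℓ,
          twistFun (Complex.exp (2 * π * Complex.I / ℓ) ^ i) (f : LaurentSeries ℂ)) :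
    PsiMer N g =
      ∏ x : OnePoint (ZMod ℓ), compGL (heckeRep ℓ x) (det_heckeRep_pos ℓ x) (PsiMer N f) := by
  set D := compGL (ModularForm.heckeDiagMatrix ℓ) (ModularForm.det_heckeDiagMatrix_pos ℓ) with hD
  apply D.injective
  set fQ : MerQ := ⟨f, FF_le_MerQ N f.2⟩ with hfQ
  have hpow : ∀ i : ℕ, Complex.exp (2 * π * Complex.I / ℓ) ^ i
      = Complex.exp (2 * π * Complex.I * i / ℓ) := by
    intro i
    rw [← Complex.exp_nat_mul]
    congr 1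
    ring
  have hsq : qExpand ℂ (ℓ ^ 2) (f : LaurentSeries ℂ) = qExpand ℂ ℓ (qExpand ℂ ℓ (f : LaurentSeries ℂ)) := by
    have : NeZero (ℓ * ℓ) := ⟨mul_ne_zero (NeZero.ne ℓ) (NeZero.ne ℓ)⟩
    rw [qExpand_qExpand]
    exact qExpand_congr (pow_two ℓ) _
  have h2 : (⟨qExpand ℂ ℓ (g : LaurentSeries ℂ),
        qExpand_mem_MerQ ℓ (FF_le_MerQ N g.2)⟩ : MerQ) =
      ⟨qExpand ℂ ℓ (qExpand ℂ ℓ (f : LaurentSeries ℂ)),
        qExpand_mem_MerQ ℓ (qExpand_mem_MerQ ℓ fQ.2)⟩ *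
      ∏ i ∈ Finset.range ℓ,
        (⟨twistFun (Complex.exp (2 * π * Complex.I * i / ℓ)) (f : LaurentSeries ℂ),
          twistFun_mem_MerQ (norm_exp_two_pi_div ℓ i) fQ.2⟩ : MerQ) := by
    apply Subtype.ext
    have hprod : ((∏ i ∈ Finset.range ℓ,
        (⟨twistFun (Complex.exp (2 * π * Complex.I * i / ℓ)) (f : LaurentSeries ℂ),
          twistFun_mem_MerQ (norm_exp_two_pi_div ℓ i) fQ.2⟩ : MerQ) : MerQ) : LaurentSeries ℂ)
        = ∏ i ∈ Finset.range ℓ,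
          twistFun (Complex.exp (2 * π * Complex.I * i / ℓ)) (f : LaurentSeries ℂ) :=
      map_prod MerQ.val _ _
    rw [MulMemClass.coe_mul, hprod]
    show qExpand ℂ ℓ (g : LaurentSeries ℂ) = _
    rw [h1, hsq]
    congr 1
    exact Finset.prod_congr rfl fun i _ => by rw [hpow]
  have h3 : D (PsiMer N g) =
      PsiQ ⟨qExpand ℂ ℓ (g : LaurentSeries ℂ),
        qExpand_mem_MerQ ℓ (FF_le_MerQ N g.2)⟩ := by
    rw [PsiMer_eq]
    exact (PsiQ_qExpand ℓ ⟨_, FF_le_MerQ N g.2⟩).symm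
  rw [h3, h2, map_mul, map_prod, prod_onePoint_heckeRep, map_mul, map_prod]
  congr 1
  · have e1 := PsiQ_qExpand ℓ ⟨qExpand ℂ ℓ (f : LaurentSeries ℂ), qExpand_mem_MerQ ℓ fQ.2⟩
    have e2 := PsiQ_qExpand ℓ fQ
    rw [e1, e2]
    rfl
  · refine Finset.prod_congr rfl fun i _ => ?_
    have e1 := PsiQ_twistFun ℓ i fQ
    rw [e1, hD, compGL_compGL _ _ _ _ (det_heckeMatrix_mul_diag_pos ℓ i)]
    rfl

/-- `Ψ(T_ℓ f)(τ) = Ψ f(ℓ τ) ∏_{i<ℓ} Ψ f((τ+i)/ℓ)` for `f` defined over `ℚ̄`. -/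
theorem PsiMer_bcHom_heckeNorm (hstar : HStar Kbar N ℓ) (f : FF Kbar N) :
    PsiMer N (bcHom N (heckeNorm Kbar N ℓ f)) =
      ∏ x : OnePoint (ZMod ℓ),
        compGL (heckeRep ℓ x) (det_heckeRep_pos ℓ x) (PsiMer N (bcHom N f)) := by
  apply PsiMer_of_hstar
  have hζC : IsPrimitiveRoot (Complex.exp (2 * π * Complex.I / ℓ)) ℓ :=
    Complex.isPrimitiveRoot_exp ℓ (NeZero.ne ℓ)
  have : NeZero ((ℓ : ℕ) : Kbar) := ⟨by exact_mod_cast NeZero.ne ℓ⟩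
  obtain ⟨ζ₀, hζ₀⟩ : ∃ ζ : Kbar, IsPrimitiveRoot ζ ℓ :=
    HasEnoughRootsOfUnity.exists_primitiveRoot Kbar ℓ
  have hζ₀' : IsPrimitiveRoot (iota ζ₀) ℓ := hζ₀.map_of_injective iota.injective
  obtain ⟨k, -, hk, hkζ⟩ := hζ₀'.isPrimitiveRoot_iff.mp hζC
  have hζ : IsPrimitiveRoot (ζ₀ ^ k) ℓ := hζ₀.pow_of_coprime k hk
  have hiota : iota (ζ₀ ^ k) = Complex.exp (2 * π * Complex.I / ℓ) := by rw [map_pow, hkζ]
  rw [coe_bcHom, ← coeffMap_qExpand, hstar _ hζ f, map_mul, map_prod, coeffMap_qExpand, coe_bcHom]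
  congr 1
  refine Finset.prod_congr rfl fun i _ => ?_
  rw [← hiota]
  ext n
  simp

/-- If `u` (defined over `ℚ̄`) has character `χ` then `T_ℓ u` has character `γ ↦ ∏_x χ(γ'_x)`. -/
theorem HasChar.heckeK (hstar : HStar Kbar N ℓ) {m : ℕ} {u : (FF Kbar N)ˣ}
    {χ χ' : Gamma0 N →* rootsOfUnity m ℂ} (h : HasChar N m (bcUnits N u) χ)
    (hχ' : ∀ γ : Gamma0 N, ∃ D : HeckeDecomp N ℓ γ, χ' γ = ∏ y, χ (D.γ' y)) :
    HasChar N m (bcUnits N (Units.map (heckeNorm Kbar N ℓ) u)) χ' := by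
  obtain ⟨h, hm, hγ⟩ := h
  refine ⟨∏ x : OnePoint (ZMod ℓ), compGL (heckeRep ℓ x) (det_heckeRep_pos ℓ x) h, ?_, ?_⟩
  · rw [← Finset.prod_pow]
    simp only [← map_pow, hm]
    exact (PsiMer_bcHom_heckeNorm hstar (u : FF Kbar N)).symm
  · intro γ
    obtain ⟨D, hD⟩ := hχ' γ
    have step : ∀ x : OnePoint (ZMod ℓ),
        compSL (γ : SL(2, ℤ)) (compGL (heckeRep ℓ x) (det_heckeRep_pos ℓ x) h) =
          algebraMap ℂ Mer (((χ (D.γ' x) : rootsOfUnity m ℂ) : ℂˣ) : ℂ) *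
            compGL (heckeRep ℓ (D.σ x)) (det_heckeRep_pos ℓ (D.σ x)) h := by
      intro x
      have hpos1 : 0 < (heckeRep ℓ x * mapGL ℝ (γ : SL(2, ℤ))).det.val := by
        rw [map_mul, Units.val_mul]
        exact mul_pos (det_heckeRep_pos ℓ x) (det_mapGL_pos _)
      have hpos2 : 0 < (mapGL ℝ (D.γ' x : SL(2, ℤ)) * heckeRep ℓ (D.σ x)).det.val := by
        rw [map_mul, Units.val_mul]
        exact mul_pos (det_mapGL_pos _) (det_heckeRep_pos ℓ _)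
      have e1 : compSL (γ : SL(2, ℤ)) (compGL (heckeRep ℓ x) (det_heckeRep_pos ℓ x) h)
          = compGL (heckeRep ℓ x * mapGL ℝ (γ : SL(2, ℤ))) hpos1 h :=
        compGL_compGL _ _ _ _ hpos1 h
      have e2 : compGL (heckeRep ℓ (D.σ x)) (det_heckeRep_pos ℓ (D.σ x))
          (compSL (D.γ' x : SL(2, ℤ)) h)
          = compGL (mapGL ℝ (D.γ' x : SL(2, ℤ)) * heckeRep ℓ (D.σ x)) hpos2 h :=
        compGL_compGL _ _ _ _ hpos2 h
      rw [e1, compGL_congr (D.rel x) hpos1 hpos2, ← e2, hγ, map_mul, compGL_algebraMap]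
    rw [map_prod]
    simp only [step]
    rw [Finset.prod_mul_distrib, Equiv.prod_comp D.σ
      (fun x => compGL (heckeRep ℓ x) (det_heckeRep_pos ℓ x) h), hD, ← map_prod]
    congr 2
    simp

end Fermat.Agent.GAL.Tors
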