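import Mathlib
import Fermat.Agent.GAL.Tors.HeckeMer
import Fermat.Agent.GAL.Tors.HeckeMerK
import Fermat.Agent.GAL.Tors.Boundary
import Fermat.Agent.GAL.KVGalois

set_option autoImplicit false

/-!
# GAL-TORS: the final interface `TorsDatum N` and its assembly

`TorsDatum N` = a lattice `ℤ^r` with commuting integral Hecke matrices, an injective Hecke
equivariant period map `S₂(Γ₀(N)) → ℂ^r`, and a compatible system of Hecke equivariant
isomorphisms `(ℤ/m)^r ≃ V_m(F_{ℚ̄}(N)) = KV Kbar (FF Kbar N) m`.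
-/

noncomputable section

namespace Fermat.Agent.GAL

namespace Tors

open CongruenceSubgroup ModularCurve Fermat.Agent.S24
open scoped MatrixGroups

variable (N : ℕ) [NeZero N]

/-! ### Algebra of `HasChar` (block K) -/

/-- An element of a field extension of `ℂ` which is integral over `ℂ` is a constant. -/
theorem mem_range_algebraMap_of_pow_eq_one {E : Type*} [Field E] [Algebra ℂ E] {c : E} {m : ℕ}
    (hm : m ≠ 0) (hc : c ^ m = 1) : ∃ z : ℂ, algebraMap ℂ E z = c := by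
  have hint : IsIntegral ℂ c := by
    refine ⟨Polynomial.X ^ m - 1, Polynomial.monic_X_pow_sub_C (1 : ℂ) hm, ?_⟩
    simp [hc]
  exact minpoly.mem_range_of_degree_eq_one ℂ c
    (IsAlgClosed.degree_eq_one_of_irreducible ℂ (minpoly.irreducible hint))

variable {N} in
omit [NeZero N] in
theorem PsiMer_unit_ne_zero (u : (FF ℂ N)ˣ) : PsiMer N (u : FF ℂ N) ≠ 0 := by
  rw [Ne, map_eq_zero_iff _ (PsiMer_injective N)]
  exact u.ne_zero

variable {N} in
/-- (K1) the character is unique. -/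
theorem hasChar_unique {m : ℕ} [NeZero m] {u : (FF ℂ N)ˣ} {χ χ' : Gamma0 N →* rootsOfUnity m ℂ}
    (h : HasChar N m u χ) (h' : HasChar N m u χ') : χ = χ' := by
  obtain ⟨h₁, e₁, t₁⟩ := h
  obtain ⟨h₂, e₂, t₂⟩ := h'
  have hm : m ≠ 0 := NeZero.ne m
  have hu := PsiMer_unit_ne_zero u
  have h₁0 : h₁ ≠ 0 := by
    rintro rfl
    rw [zero_pow hm] at e₁
    exact hu e₁.symm
  have h₂0 : h₂ ≠ 0 := by
    rintro rfl
    rw [zero_pow hm] at e₂
    exact hu e₂.symm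
  obtain ⟨z, hz⟩ := mem_range_algebraMap_of_pow_eq_one (c := h₂ / h₁) hm
    (by rw [div_pow, e₁, e₂, div_self hu])
  have hz' : h₂ = algebraMap ℂ Mer z * h₁ := by rw [hz, div_mul_cancel₀ _ h₁0]
  refine MonoidHom.ext fun γ => ?_
  have e3 := t₂ γ
  have e4 : compSL (γ : SL(2, ℤ)) h₂
      = algebraMap ℂ Mer (((χ γ : rootsOfUnity m ℂ) : ℂˣ) : ℂ) * h₂ := by
    conv_lhs => rw [hz']
    rw [map_mul, t₁ γ, hz']
    have : compSL (γ : SL(2, ℤ)) (algebraMap ℂ Mer z) = algebraMap ℂ Mer z :=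
      compGL_algebraMap _ _ z
    rw [this]
    ring
  rw [e4] at e3
  have e5 := mul_right_cancel₀ h₂0 e3
  have e6 := (algebraMap ℂ Mer).injective e5
  exact Subtype.ext (Units.ext e6)

variable {N} in
omit [NeZero N] in
/-- (K2) multiplicativity. -/
theorem HasChar.mul {m : ℕ} {u u' : (FF ℂ N)ˣ} {χ χ' : Gamma0 N →* rootsOfUnity m ℂ}
    (h : HasChar N m u χ) (h' : HasChar N m u' χ') : HasChar N m (u * u') (χ * χ') := by
  obtain ⟨h₁, e₁, t₁⟩ := h
  obtain ⟨h₂, e₂, t₂⟩ := h'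
  refine ⟨h₁ * h₂, by rw [mul_pow, e₁, e₂, Units.val_mul, map_mul], fun γ => ?_⟩
  rw [map_mul, t₁ γ, t₂ γ, MonoidHom.mul_apply, Subgroup.coe_mul, Units.val_mul, map_mul]
  ring

/-- (K3) `m`-th powers have trivial character (uses (D0)). -/
theorem hasChar_pow (m : ℕ) (y : (FF ℂ N)ˣ) : HasChar N m (y ^ m) 1 := by
  refine ⟨PsiMer N (y : FF ℂ N), by rw [Units.val_pow_eq_pow_val, map_pow], fun γ => ?_⟩
  rw [compSL_PsiMer, MonoidHom.one_apply]
  simp

variable {N} in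
omit [NeZero N] in
/-- (K4) change of `m`. -/
theorem HasChar.red {m m' : ℕ} (hm : m ∣ m') [NeZero m'] {u : (FF ℂ N)ˣ}
    {χ' : Gamma0 N →* rootsOfUnity m' ℂ} {χ : Gamma0 N →* rootsOfUnity m ℂ}
    (h : HasChar N m' u χ')
    (hχ : ∀ γ, (((χ γ : rootsOfUnity m ℂ) : ℂˣ) : ℂ) =
      (((χ' γ : rootsOfUnity m' ℂ) : ℂˣ) : ℂ) ^ (m' / m)) : HasChar N m u χ := by
  obtain ⟨h₁, e₁, t₁⟩ := h
  refine ⟨h₁ ^ (m' / m), by rw [← pow_mul, Nat.div_mul_cancel hm, e₁], fun γ => ?_⟩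
  rw [map_pow, t₁ γ, mul_pow, hχ γ, map_pow]

/-- the character of a Kummer unit -/
def kappa0 (m : ℕ) [NeZero m] (u : kummerUnits ℂ (FF ℂ N) m) : Gamma0 N →* rootsOfUnity m ℂ :=
  (exists_hasChar N m u u.2).choose

theorem kappa0_hasChar (m : ℕ) [NeZero m] (u : kummerUnits ℂ (FF ℂ N) m) :
    HasChar N m (u : (FF ℂ N)ˣ) (kappa0 N m u) :=
  (exists_hasChar N m u u.2).choose_spec.1

theorem kappa0_neTrivial (m : ℕ) [NeZero m] (u : kummerUnits ℂ (FF ℂ N) m) :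
    NeTrivial (kappa0 N m u) :=
  (exists_hasChar N m u u.2).choose_spec.2

/-- the homomorphism `u ↦ χ_u` -/
def kappaHom (m : ℕ) [NeZero m] : kummerUnits ℂ (FF ℂ N) m →* neChars N m where
  toFun u := ⟨kappa0 N m u, kappa0_neTrivial N m u⟩
  map_one' := by
    apply Subtype.ext
    have h1 := kappa0_hasChar N m 1
    have h2 : HasChar N m ((1 : kummerUnits ℂ (FF ℂ N) m) : (FF ℂ N)ˣ) 1 := by
      have := hasChar_pow N m 1
      rwa [one_pow] at this
    exact hasChar_unique h1 h2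
  map_mul' u v := by
    apply Subtype.ext
    exact hasChar_unique (kappa0_hasChar N m (u * v))
      ((kappa0_hasChar N m u).mul (kappa0_hasChar N m v))

theorem kappaHom_ker (m : ℕ) [NeZero m] : (kappaHom N m).ker = kummerPowers ℂ (FF ℂ N) m := by
  ext u
  rw [MonoidHom.mem_ker, kummerPowers, Subgroup.mem_subgroupOf, MonoidHom.mem_range]
  constructor
  · intro h
    have h1 : kappa0 N m u = 1 := congrArg Subtype.val h
    have h2 := kappa0_hasChar N m u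
    rw [h1] at h2
    exact exists_root_of_hasChar_one N m u h2
  · rintro ⟨y, hy⟩
    apply Subtype.ext
    have hy' : y ^ m = (u : (FF ℂ N)ˣ) := hy
    have h2 := hasChar_pow N m y
    rw [hy'] at h2
    exact hasChar_unique (kappa0_hasChar N m u) h2

theorem kappaHom_surjective (m : ℕ) [NeZero m] : Function.Surjective (kappaHom N m) := by
  rintro ⟨χ, hχ⟩
  obtain ⟨u, hu, h⟩ := exists_kummerUnit_of_neTrivial N m χ hχ
  exact ⟨⟨u, hu⟩, Subtype.ext (hasChar_unique (kappa0_hasChar N m ⟨u, hu⟩) h)⟩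

/-- (K5) **the analytic Kummer isomorphism** `V_m(F_ℂ(N)) ≃ Hom_ne(Γ₀(N), μ_m)`. -/
theorem exists_kappa (m : ℕ) [NeZero m] :
    ∃ κ : KV ℂ (FF ℂ N) m ≃+ Additive (neChars N m),
      ∀ u : kummerUnits ℂ (FF ℂ N) m,
        HasChar N m (u : (FF ℂ N)ˣ) (Additive.toMul (κ (KV.mk u)) : neChars N m).1 := by
  let e : (kummerUnits ℂ (FF ℂ N) m ⧸ kummerPowers ℂ (FF ℂ N) m) ≃* neChars N m :=
    (QuotientGroup.quotientMulEquivOfEq (kappaHom_ker N m).symm).trans
      (QuotientGroup.quotientKerEquivOfSurjective (kappaHom N m) (kappaHom_surjective N m))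
  refine ⟨MulEquiv.toAdditive e, fun u => ?_⟩
  exact kappa0_hasChar N m u

/-! ### Base change and Hecke operators (block BC) -/

variable {N} in
/-- (BC1) base change commutes with `heckeNorm`. -/
theorem bcHom_heckeNorm {ℓ : ℕ} [NeZero ℓ] (hK : HStar Kbar N ℓ) (hC : HStar ℂ N ℓ)
    (f : FF Kbar N) : bcHom N (heckeNorm Kbar N ℓ f) = heckeNorm ℂ N ℓ (bcHom N f) := by
  apply Subtype.ext
  apply qExpand_injective (R := ℂ) ℓ
  have : NeZero ((ℓ : ℕ) : Kbar) := ⟨by exact_mod_cast NeZero.ne ℓ⟩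
  obtain ⟨ζ, hζ⟩ : ∃ ζ : Kbar, IsPrimitiveRoot ζ ℓ :=
    HasEnoughRootsOfUnity.exists_primitiveRoot Kbar ℓ
  have hζ' : IsPrimitiveRoot (iota ζ) ℓ := hζ.map_of_injective iota.injective
  rw [coe_bcHom, ← coeffMap_qExpand, hK ζ hζ f, hC (iota ζ) hζ' (bcHom N f), map_mul, map_prod,
    coeffMap_qExpand, coe_bcHom]
  congr 1
  refine Finset.prod_congr rfl fun i _ => ?_
  ext n
  simp

variable {N} in
/-- (BC2) -/
theorem bcKV_heckeT {ℓ : ℕ} [NeZero ℓ] (hK : HStar Kbar N ℓ) (hC : HStar ℂ N ℓ) {m : ℕ}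
    (hpK : HeckeNormPreserves Kbar N ℓ m) (hpC : HeckeNormPreserves ℂ N ℓ m)
    (x : KV Kbar (FF Kbar N) m) :
    bcKV N m (heckeT Kbar N ℓ m x) = heckeT ℂ N ℓ m (bcKV N m x) := by
  obtain ⟨u, rfl⟩ := KV.mk_surjective x
  rw [heckeT_mk hpK, bcKV, KV.map_mk, KV.map_mk, heckeT_mk hpC]
  congr 1
  apply Subtype.ext
  apply Units.ext
  exact bcHom_heckeNorm hK hC _

/-- (BC3) -/
theorem bcKV_red {m m' : ℕ} (h : m ∣ m') (x : KV Kbar (FF Kbar N) m') :
    bcKV N m (KV.red h x) = KV.red h (bcKV N m' x) := by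
  obtain ⟨u, rfl⟩ := KV.mk_surjective x
  rfl

/-! ### The interface -/

/-- An integral matrix killing all period vectors vanishes (the basis of the period lattice is
`ℤ`-linearly independent in the dual of the space of cusp forms). -/
theorem bettiPer_faithful (t : Matrix (Fin (bettiRank N)) (Fin (bettiRank N)) ℤ)
    (h : ∀ f : CuspForm (Gamma0 N) 2, (t.map (Int.castRingHom ℂ)).mulVec (bettiPer N f) = 0) :
    t = 0 := by
  ext i j
  have h1 : ∑ j, t i j • bettiBasis N j = 0 := by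
    apply Subtype.ext
    apply LinearMap.ext
    intro f
    have h2 := congrFun (h f) i
    rw [Matrix.mulVec, dotProduct] at h2
    rw [AddSubgroup.val_finsetSum, LinearMap.sum_apply]
    simp only [Matrix.map_apply, bettiPer_apply, Pi.zero_apply, Int.coe_castRingHom] at h2
    simpa using h2
  have h3 := Fintype.linearIndependent_iff.mp (bettiBasis N).linearIndependent (fun j => t i j) h1 j
  simpa using h3

/-- **The output of GAL-TORS.** -/
structure TorsDatum (N : ℕ) [NeZero N] where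
  r : ℕ
  T : ℕ → Matrix (Fin r) (Fin r) ℤ
  T_comm : ∀ ℓ ℓ' : ℕ, T ℓ * T ℓ' = T ℓ' * T ℓ
  per : CuspForm (Gamma0 N) 2 →ₗ[ℂ] (Fin r → ℂ)
  per_injective : Function.Injective per
  per_T : ∀ (ℓ : ℕ) (hℓ : ℓ.Prime) (hℓN : ¬ ℓ ∣ N) (f : CuspForm (Gamma0 N) 2),
    per (CuspForm.heckeTLin 2 hℓ hℓN f) = ((T ℓ).map (Int.castRingHom ℂ)).mulVec (per f)
  /-- `ℤ^r` is a lattice of periods: an integral matrix killing all period vectors vanishes
  (used by DR/S35). -/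
  per_faithful : ∀ t : Matrix (Fin r) (Fin r) ℤ,
    (∀ f : CuspForm (Gamma0 N) 2, (t.map (Int.castRingHom ℂ)).mulVec (per f) = 0) → t = 0
  e : ∀ m : ℕ, [NeZero m] → ((Fin r → ZMod m) ≃+ KV Kbar (FF Kbar N) m)
  e_T : ∀ (m : ℕ) [NeZero m] (ℓ : ℕ) [NeZero ℓ], ℓ.Prime → ¬ ℓ ∣ N → ∀ x : Fin r → ZMod m,
    e m (((T ℓ).map (Int.castRingHom (ZMod m))).mulVec x) = heckeT Kbar N ℓ m (e m x)
  e_red : ∀ (m m' : ℕ) [NeZero m] [NeZero m'] (h : m ∣ m') (x : Fin r → ZMod m'),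
    KV.red h (e m' x) = e m (fun i => ZMod.castHom h (ZMod m) (x i))

/-- What GAL-TORS consumes from GAL-HECKE (only over `ℚ̄`). -/
structure HeckeInput (N : ℕ) [NeZero N] : Prop where
  hstarK : ∀ (ℓ : ℕ) [NeZero ℓ], ℓ.Prime → ¬ ℓ ∣ N → HStar Kbar N ℓ
  presK : ∀ (ℓ : ℕ) [NeZero ℓ] (m : ℕ), ℓ.Prime → ¬ ℓ ∣ N → HeckeNormPreserves Kbar N ℓ m

/-- **Main theorem of GAL-TORS.** -/
theorem nonempty_torsDatum (H : HeckeInput N) : Nonempty (TorsDatum N) := by
  obtain ⟨c, hB1, hB3⟩ := exists_charOf N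
  choose κ hκ using fun (m : {m : ℕ // NeZero m}) => haveI := m.2; exists_kappa N m.1
  have hfin : ∀ (m : ℕ) [hm : NeZero m], Finite (KV ℂ (FF ℂ N) m) := fun m hm =>
    Finite.of_equiv _ ((c m).trans (κ ⟨m, hm⟩).symm).toEquiv
  let bcE : ∀ m : ℕ, [NeZero m] → (KV Kbar (FF Kbar N) m ≃+ KV ℂ (FF ℂ N) m) := fun m _ =>
    AddEquiv.ofBijective (bcKV N m) (bijective_bcKV N m (hfin m))
  let e : ∀ m : ℕ, [NeZero m] → ((Fin (bettiRank N) → ZMod m) ≃+ KV Kbar (FF Kbar N) m) :=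
    fun m hm => ((c m).trans (κ ⟨m, hm⟩).symm).trans (bcE m).symm
  have he : ∀ (m : ℕ) [hm : NeZero m] (x : Fin (bettiRank N) → ZMod m),
      κ ⟨m, hm⟩ (bcKV N m (e m x)) = c m x := by
    intro m hm x
    have h1 : bcKV N m (e m x) = (κ ⟨m, hm⟩).symm (c m x) :=
      (bcE m).apply_symm_apply _
    rw [h1, AddEquiv.apply_symm_apply]
  have hinj : ∀ (m : ℕ) [hm : NeZero m] (a b : KV Kbar (FF Kbar N) m),
      κ ⟨m, hm⟩ (bcKV N m a) = κ ⟨m, hm⟩ (bcKV N m b) → a = b := by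
    intro m hm a b hab
    exact (bijective_bcKV N m (hfin m)).1 ((κ ⟨m, hm⟩).injective hab)
  refine ⟨{
    r := bettiRank N
    T := bettiT N
    T_comm := bettiT_comm N
    per := bettiPer N
    per_injective := bettiPer_injective N
    per_T := bettiPer_T N
    per_faithful := bettiPer_faithful N
    e := e
    e_T := ?_
    e_red := ?_ }⟩
  · intro m hm ℓ hℓ0 hℓ hℓN x
    apply hinj m
    rw [he]
    obtain ⟨u, hu⟩ := KV.mk_surjective (e m x)
    have h1 : HasChar N m (bcUnits N (u : (FF Kbar N)ˣ))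
        (Additive.toMul (c m x) : neChars N m).1 := by
      have := hκ ⟨m, hm⟩ ⟨bcUnits N (u : (FF Kbar N)ˣ), bc_mem_kummerUnits N m u u.2⟩
      have h0 : (KV.mk ⟨bcUnits N (u : (FF Kbar N)ˣ), bc_mem_kummerUnits N m u u.2⟩ :
          KV ℂ (FF ℂ N) m) = bcKV N m (e m x) := by
        rw [← hu, bcKV, KV.map_mk]
      rwa [h0, he] at this
    rw [← hu, heckeT_mk (H.presK ℓ m hℓ hℓN), bcKV, KV.map_mk]
    have h2 := hκ ⟨m, hm⟩ ⟨bcUnits N (Units.map (heckeNorm Kbar N ℓ) (u : (FF Kbar N)ˣ)),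
      bc_mem_kummerUnits N m _ (H.presK ℓ m hℓ hℓN u u.2)⟩
    have h3 : HasChar N m (bcUnits N (Units.map (heckeNorm Kbar N ℓ) (u : (FF Kbar N)ˣ)))
        (Additive.toMul (c m (((bettiT N ℓ).map (Int.castRingHom (ZMod m))).mulVec x)) :
            neChars N m).1 := by
      refine HasChar.heckeK (H.hstarK ℓ hℓ hℓN) h1 fun γ => ?_
      obtain ⟨D⟩ := nonempty_heckeDecomp N hℓ hℓN γ
      exact ⟨D, hB1 m ℓ hℓ hℓN x γ D⟩
    have h4 := hasChar_unique h3 h2
    exact Additive.toMul.injective (Subtype.ext h4)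
  · intro m m' hm hm' h x
    apply hinj m
    rw [he, bcKV_red]
    obtain ⟨u, hu⟩ := KV.mk_surjective (bcKV N m' (e m' x))
    have h1 : HasChar N m' (u : (FF ℂ N)ˣ) (Additive.toMul (c m' x) : neChars N m').1 := by
      have := hκ ⟨m', hm'⟩ u
      rwa [hu, he] at this
    rw [← hu, KV.red_mk]
    have h2 := hκ ⟨m, hm⟩ ⟨u, kummerUnits_le_of_dvd h u.2⟩
    have h3 : HasChar N m (u : (FF ℂ N)ˣ)
        (Additive.toMul (c m (fun i => ZMod.castHom h (ZMod m) (x i))) : neChars N m).1 :=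
      HasChar.red h h1 (fun γ => hB3 m m' h x γ)
    have h4 := hasChar_unique h2 h3
    exact Additive.toMul.injective (Subtype.ext h4)

end Tors

end Fermat.Agent.GAL
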