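import Mathlib
import Fermat.Agent.GAL.Tors.Main
import Fermat.Agent.GAL.Hecke.NormFormulaCore
import Fermat.Agent.GAL.Hecke.HeckeBasic

set_option autoImplicit false

/-!
# GAL-TORS: the input from GAL-HECKE is available
-/

noncomputable section

namespace Fermat.Agent.GAL.Tors

open CongruenceSubgroup ModularCurve Fermat.Agent.S24

/-- (H-star) over `ℚ̄`, in the form used by GAL-TORS. -/
theorem hstar_Kbar (N ℓ : ℕ) [NeZero N] [NeZero ℓ] (hℓ : ℓ.Prime) (hℓN : ¬ ℓ ∣ N) :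
    HStar Kbar N ℓ := by
  intro ζ hζ f
  have h := NormFormula.qExpand_heckeNorm' hℓ hℓN hζ f
  have : NeZero (ℓ * ℓ) := ⟨mul_ne_zero (NeZero.ne ℓ) (NeZero.ne ℓ)⟩
  have hsq : qExpand Kbar (ℓ ^ 2) (f : LaurentSeries Kbar)
      = qExpand Kbar (ℓ * ℓ) (f : LaurentSeries Kbar) := qExpand_congr (pow_two ℓ) _
  rw [hsq, ← Fin.prod_univ_eq_prod_range (fun i => twistFun (ζ ^ i) (f : LaurentSeries Kbar))]
  refine h.trans ?_
  congr 1

/-- The input of GAL-TORS from GAL-HECKE. -/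
theorem heckeInput (N : ℕ) [NeZero N] : HeckeInput N where
  hstarK ℓ _ hℓ hℓN := hstar_Kbar N ℓ hℓ hℓN
  presK ℓ _ m _ _ := Hecke.heckeNormPreserves N ℓ m

/-- **GAL-TORS**, with the Hecke input discharged. -/
theorem nonempty_torsDatum' (N : ℕ) [NeZero N] : Nonempty (TorsDatum N) :=
  nonempty_torsDatum N (heckeInput N)

end Fermat.Agent.GAL.Tors
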