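import Mathlib

/-!
# Abstract Hecke operators on `Hom(Γ, A)` (transfer formula)

`Γ` is a group mapping injectively to a group `G` by `ι`.  A *Hecke family* is a finite family
`α i ∈ G` together with a right action `perm` of `Γ` on the index set and a cocycle `coc` with
`α i * ι γ = ι (coc γ i) * α (perm γ i)`.  It defines an operator on `Hom(Γ, A)`
by `(T φ) γ = ∑ i, φ (coc γ i)`.
-/

set_option autoImplicit false

namespace Fermat.Agent.GAL.Tors

/-- A sum over a finite set vanishes if the sums over the cycles of a permutation vanish. -/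
theorem sum_eq_zero_of_cycles {I A : Type*} [Fintype I] [AddCommMonoid A] (σ : Equiv.Perm I)
    (c : I → A)
    (h : ∀ i, ∑ k ∈ Finset.range (Function.minimalPeriod σ i), c ((σ ^ k) i) = 0) :
    ∑ i, c i = 0 := by
  classical
  rw [Finset.sum_partition (Equiv.Perm.SameCycle.setoid σ)]
  refine Finset.sum_eq_zero fun xbar hx => ?_
  obtain ⟨i, -, rfl⟩ := Finset.mem_image.mp hx
  rw [← h i]
  symm
  refine Finset.sum_bij (fun k _ => (σ ^ k) i) ?_ ?_ ?_ ?_
  · intro k _
    rw [Finset.mem_filter]
    refine ⟨Finset.mem_univ _, Quotient.sound ?_⟩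
    show σ.SameCycle ((σ ^ k) i) i
    exact (Equiv.Perm.sameCycle_pow_left).mpr (Equiv.Perm.SameCycle.refl _ _)
  · intro k hk k' hk' hkk
    refine Function.iterate_injOn_Iio_minimalPeriod (f := σ) (x := i)
      (Finset.mem_range.mp hk) (Finset.mem_range.mp hk') ?_
    simpa [Equiv.Perm.iterate_eq_pow] using hkk
  · intro y hy
    rw [Finset.mem_filter] at hy
    have hy' : σ.SameCycle y i := Quotient.exact hy.2
    obtain ⟨n, hn⟩ := hy'.symm.exists_nat_pow_eq
    have hpos : 0 < Function.minimalPeriod σ i :=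
      Function.minimalPeriod_pos_of_mem_periodicPts (σ.injective.mem_periodicPts i)
    refine ⟨n % Function.minimalPeriod σ i, Finset.mem_range.mpr (Nat.mod_lt _ hpos), ?_⟩
    rw [← hn, ← Equiv.Perm.iterate_eq_pow, ← Equiv.Perm.iterate_eq_pow,
      Function.iterate_mod_minimalPeriod_eq]
  · intro k _
    rfl

/-- A Hecke family: coset representatives `α i`, permuted by right multiplication by `Γ`. -/
structure HeckeFamily {Γ G : Type*} [Group Γ] [Group G] (ι : Γ →* G) (I : Type*) where
  α : I → G
  perm : Γ → Equiv.Perm I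
  perm_mul : ∀ γ γ' i, perm (γ * γ') i = perm γ' (perm γ i)
  coc : Γ → I → Γ
  coc_spec : ∀ γ i, α i * ι γ = ι (coc γ i) * α (perm γ i)
  inj : Function.Injective ι

namespace HeckeFamily

variable {Γ G : Type*} [Group Γ] [Group G] {ι : Γ →* G} {I : Type*} (H : HeckeFamily ι I)

theorem coc_mul (γ γ' : Γ) (i : I) :
    H.coc (γ * γ') i = H.coc γ i * H.coc γ' (H.perm γ i) := by
  apply H.inj
  have h1 := H.coc_spec (γ * γ') i
  have h2 := H.coc_spec γ i
  have h3 := H.coc_spec γ' (H.perm γ i)
  rw [map_mul, ← mul_assoc, h2, mul_assoc, h3, ← mul_assoc, H.perm_mul] at h1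
  rw [map_mul]
  exact (mul_right_cancel h1).symm

theorem perm_one (i : I) : H.perm 1 i = i := by
  have := H.perm_mul 1 1 i
  rw [mul_one] at this
  exact ((H.perm 1).injective this).symm

theorem coc_one (i : I) : H.coc 1 i = 1 := by
  have := H.coc_mul 1 1 i
  rw [mul_one, H.perm_one] at this
  exact (mul_eq_left.mp this.symm)

theorem perm_pow (γ : Γ) (n : ℕ) (i : I) : H.perm (γ ^ n) i = ((H.perm γ) ^ n) i := by
  induction n generalizing i with
  | zero => simp [H.perm_one]
  | succ n ih =>
    rw [pow_succ', H.perm_mul, ih, pow_succ, Equiv.Perm.mul_apply]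

variable [Fintype I] {A : Type*} [AddCommGroup A]

/-- The Hecke operator attached to a Hecke family, on a single homomorphism. -/
def transferFun (φ : Additive Γ →+ A) : Additive Γ →+ A :=
  AddMonoidHom.mk' (fun γ => ∑ i, φ (Additive.ofMul (H.coc γ.toMul i))) (by
    intro γ γ'
    have : ∀ i, φ (Additive.ofMul (H.coc (γ + γ').toMul i)) =
        φ (Additive.ofMul (H.coc γ.toMul i)) +
          φ (Additive.ofMul (H.coc γ'.toMul (H.perm γ.toMul i))) := by
      intro i
      rw [toMul_add, H.coc_mul, ofMul_mul, map_add]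
    simp only [this, Finset.sum_add_distrib]
    congr 1
    exact Equiv.sum_comp (H.perm γ.toMul) (fun i => φ (Additive.ofMul (H.coc γ'.toMul i))))

theorem transferFun_apply (φ : Additive Γ →+ A) (γ : Γ) :
    H.transferFun φ (Additive.ofMul γ) = ∑ i, φ (Additive.ofMul (H.coc γ i)) := rfl

/-- The Hecke operator attached to a Hecke family, as a linear map. -/
def transfer (R : Type*) [Semiring R] [Module R A] :
    (Additive Γ →+ A) →ₗ[R] (Additive Γ →+ A) where
  toFun := H.transferFun
  map_add' φ ψ := by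
    refine AddMonoidHom.ext fun γ => ?_
    show ∑ i, (φ + ψ) _ = ∑ i, φ _ + ∑ i, ψ _
    simp only [AddMonoidHom.add_apply, Finset.sum_add_distrib]
  map_smul' c φ := by
    refine AddMonoidHom.ext fun γ => ?_
    show ∑ i, (c • φ) _ = c • ∑ i, φ _
    simp only [AddMonoidHom.smul_apply, Finset.smul_sum]

theorem transfer_apply (R : Type*) [Semiring R] [Module R A] (φ : Additive Γ →+ A) (γ : Γ) :
    H.transfer R φ (Additive.ofMul γ) = ∑ i, φ (Additive.ofMul (H.coc γ i)) := rfl

theorem transfer_eq_transferFun (R : Type*) [Semiring R] [Module R A] (φ : Additive Γ →+ A) :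
    H.transfer R φ = H.transferFun φ := rfl

/-- Naturality of the Hecke operator in the coefficient group. -/
theorem transferFun_comp {B : Type*} [AddCommGroup B] (g : A →+ B) (φ : Additive Γ →+ A) :
    H.transferFun (g.comp φ) = g.comp (H.transferFun φ) := by
  refine AddMonoidHom.ext fun γ => ?_
  show ∑ i, g (φ _) = g (∑ i, φ _)
  rw [map_sum]

/-- **Equivariance** (additive form).  If `F (γ • x) = F x + φ γ` then
`x ↦ ∑ i, F (α i • x)` transforms by `T φ`. -/
theorem sum_smul_add {X : Type*} [MulAction G X] (F : X → A) (φ : Additive Γ →+ A)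
    (hF : ∀ (γ : Γ) (x : X), F (ι γ • x) = F x + φ (Additive.ofMul γ)) (γ : Γ) (x : X) :
    ∑ i, F (H.α i • ι γ • x) = ∑ i, F (H.α i • x) + H.transferFun φ (Additive.ofMul γ) := by
  have : ∀ i, F (H.α i • ι γ • x) =
      F (H.α (H.perm γ i) • x) + φ (Additive.ofMul (H.coc γ i)) := by
    intro i
    rw [← mul_smul, H.coc_spec, mul_smul, hF]
  simp only [this, Finset.sum_add_distrib, transferFun_apply]
  congr 1
  exact Equiv.sum_comp (H.perm γ) (fun i => F (H.α i • x))

/-- The multiplicative Hecke operator on characters. -/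
def transferMul {B : Type*} [CommMonoid B] (χ : Γ →* B) : Γ →* B where
  toFun γ := ∏ i, χ (H.coc γ i)
  map_one' := by simp [H.coc_one]
  map_mul' γ γ' := by
    simp only [H.coc_mul, map_mul, Finset.prod_mul_distrib]
    congr 1
    exact Equiv.prod_comp (H.perm γ) (fun i => χ (H.coc γ' i))

theorem transferMul_apply {B : Type*} [CommMonoid B] (χ : Γ →* B) (γ : Γ) :
    H.transferMul χ γ = ∏ i, χ (H.coc γ i) := rfl

/-- **Equivariance** (multiplicative form).  If `h (γ • x) = χ γ * h x` then
`x ↦ ∏ i, h (α i • x)` transforms by `T χ`. -/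
theorem prod_smul_mul {X : Type*} [MulAction G X] {B : Type*} [CommMonoid B] (h : X → B)
    (χ : Γ →* B) (hh : ∀ (γ : Γ) (x : X), h (ι γ • x) = χ γ * h x) (γ : Γ) (x : X) :
    ∏ i, h (H.α i • ι γ • x) = H.transferMul χ γ * ∏ i, h (H.α i • x) := by
  have : ∀ i, h (H.α i • ι γ • x) = χ (H.coc γ i) * h (H.α (H.perm γ i) • x) := by
    intro i
    rw [← mul_smul, H.coc_spec, mul_smul, hh]
  simp only [this, Finset.prod_mul_distrib, transferMul_apply]
  congr 1
  exact Equiv.prod_comp (H.perm γ) (fun i => h (H.α i • x))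

/-- Comparison of the additive and the multiplicative operators. -/
theorem transferMul_comp {B : Type*} [CommMonoid B] (e : Multiplicative A →* B)
    (φ : Additive Γ →+ A) (γ : Γ) :
    H.transferMul (e.comp (AddMonoidHom.toMultiplicativeRight φ)) γ
      = e (Multiplicative.ofAdd (H.transferFun φ (Additive.ofMul γ))) := by
  rw [transferMul_apply, transferFun_apply, ofAdd_sum, map_prod]
  rfl

omit [Fintype I] in
theorem map_coc_pow (φ : Additive Γ →+ A) (γ : Γ) (n : ℕ) (i : I) :
    φ (Additive.ofMul (H.coc (γ ^ n) i))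
      = ∑ k ∈ Finset.range n, φ (Additive.ofMul (H.coc γ ((H.perm γ ^ k) i))) := by
  induction n with
  | zero => simp [H.coc_one]
  | succ n ih =>
    rw [pow_succ, H.coc_mul, ofMul_mul, map_add, ih, Finset.sum_range_succ, H.perm_pow]

/-- The Hecke operator preserves the vanishing on a set `P` of elements which is stable under
powers and under conjugation by the `α i`. -/
theorem transferFun_vanish (P : Set Γ)
    (hP : ∀ γ ∈ P, ∀ n : ℕ, 0 < n → ∀ (i : I) (δ : Γ), H.α i * ι (γ ^ n) = ι δ * H.α i → δ ∈ P)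
    (φ : Additive Γ →+ A) (hφ : ∀ γ ∈ P, φ (Additive.ofMul γ) = 0) (γ : Γ) (hγ : γ ∈ P) :
    H.transferFun φ (Additive.ofMul γ) = 0 := by
  rw [transferFun_apply]
  refine sum_eq_zero_of_cycles (H.perm γ) (fun i => φ (Additive.ofMul (H.coc γ i))) fun i => ?_
  rw [← H.map_coc_pow]
  have hpos : 0 < Function.minimalPeriod (H.perm γ) i :=
    Function.minimalPeriod_pos_of_mem_periodicPts ((H.perm γ).injective.mem_periodicPts i)
  refine hφ _ (hP γ hγ _ hpos i _ ?_)
  have := H.coc_spec (γ ^ Function.minimalPeriod (H.perm γ) i) i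
  rwa [H.perm_pow, ← Equiv.Perm.iterate_eq_pow, Function.iterate_minimalPeriod] at this

end HeckeFamily

end Fermat.Agent.GAL.Tors
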