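import Mathlib
import Fermat.Prelude.Thm_ModularForm_heckeT_slash_eq_self_of_mem_Gamma0
import Fermat.Prelude.Def_ModularCurve_PeriodMap
import Fermat.Agent.GAL.Tors.Transfer

/-!
# The Hecke operator `T_p` on `Hom(Γ₀(M), A)`, `p ∤ M`
-/

set_option autoImplicit false

open P2MW.S_ModularForm_heckeT_slash_eq_self_of_mem_Gamma0.ModularForm.HeckeSlashInvariance
open CongruenceSubgroup Matrix.SpecialLinearGroup ModularCurve.Period
open scoped MatrixGroups

namespace Fermat.Agent.GAL.Tors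

/-- The inclusion of `Γ₀(M)` in `GL₂(ℝ)`. -/
noncomputable def gamma0ToGL (M : ℕ) : Gamma0 M →* GL (Fin 2) ℝ :=
  (mapGL ℝ).comp (Gamma0 M).subtype

theorem gamma0ToGL_apply (M : ℕ) (γ : Gamma0 M) : gamma0ToGL M γ = mapGL ℝ (γ : SL(2, ℤ)) := rfl

theorem gamma0ToGL_injective (M : ℕ) : Function.Injective (gamma0ToGL M) :=
  mapGL_injective.comp (Gamma0 M).subtype_injective

theorem redMatrix_mul (p : ℕ) [Fact p.Prime] (g g' : SL(2, ℤ)) :
    redMatrix p (g * g') = redMatrix p g' * redMatrix p g := by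
  ext i j
  fin_cases i <;> fin_cases j <;>
    simp [Matrix.mul_apply, Fin.sum_univ_two] <;> ring

theorem dvd_of_mem_Gamma0 {M : ℕ} (γ : Gamma0 M) : (M : ℤ) ∣ (γ : SL(2, ℤ)) 1 0 :=
  (ZMod.intCast_zmod_eq_zero_iff_dvd _ _).mp (Gamma0_mem.mp γ.2)

/-- The Hecke family of `T_p` on `Γ₀(M)`. -/
noncomputable def heckeFamily (M p : ℕ) [Fact p.Prime] (hpM : ¬ p ∣ M) :
    HeckeFamily (gamma0ToGL M) (OnePoint (ZMod p)) where
  α := heckeRep p
  perm γ := MulAction.toPerm (redMatrix p (γ : SL(2, ℤ)))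
  perm_mul γ γ' x := by
    simp only [MulAction.toPerm_apply, Subgroup.coe_mul, redMatrix_mul, mul_smul]
  coc γ x := ⟨(heckeRep_mul hpM (γ : SL(2, ℤ)) (dvd_of_mem_Gamma0 γ) x).choose,
    Gamma0_mem.mpr ((ZMod.intCast_zmod_eq_zero_iff_dvd _ _).mpr
      (heckeRep_mul hpM (γ : SL(2, ℤ)) (dvd_of_mem_Gamma0 γ) x).choose_spec.1)⟩
  coc_spec γ x := (heckeRep_mul hpM (γ : SL(2, ℤ)) (dvd_of_mem_Gamma0 γ) x).choose_spec.2
  inj := gamma0ToGL_injective M

theorem heckeFamily_α (M p : ℕ) [Fact p.Prime] (hpM : ¬ p ∣ M) :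
    (heckeFamily M p hpM).α = heckeRep p := rfl

/-! ### Traces of powers of parabolic elements -/

theorem mul_self_eq_trace_smul (A : Matrix (Fin 2) (Fin 2) ℤ) :
    A * A = A.trace • A - A.det • (1 : Matrix (Fin 2) (Fin 2) ℤ) := by
  ext i j
  fin_cases i <;> fin_cases j <;>
    simp only [Matrix.mul_apply, Fin.sum_univ_two, Matrix.sub_apply, Matrix.smul_apply,
      Matrix.one_apply, smul_eq_mul, Matrix.trace_fin_two, Matrix.det_fin_two, Fin.zero_eta,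
      Fin.mk_one, Fin.isValue, if_true, one_ne_zero, zero_ne_one, if_false] <;> ring

theorem trace_pow_sq_eq_four (A : Matrix (Fin 2) (Fin 2) ℤ) (hdet : A.det = 1)
    (htr : A.trace ^ 2 = 4) (n : ℕ) : (A ^ n).trace ^ 2 = 4 := by
  obtain ⟨ε, hε, ht⟩ : ∃ ε : ℤ, ε ^ 2 = 1 ∧ A.trace = 2 * ε := by
    have h : (A.trace - 2) * (A.trace + 2) = 0 := by linear_combination htr
    rcases mul_eq_zero.mp h with h | h
    · exact ⟨1, by norm_num, by linarith⟩
    · exact ⟨-1, by norm_num, by linarith⟩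
  have key : ∀ n : ℕ, (A ^ n).trace = 2 * ε ^ n ∧ (A ^ (n + 1)).trace = 2 * ε ^ (n + 1) := by
    intro n
    induction n with
    | zero => simp [ht]
    | succ n ih =>
      refine ⟨ih.2, ?_⟩
      have h1 : A ^ (n + 1 + 1) = A.trace • A ^ (n + 1) - A ^ n := by
        rw [pow_succ, pow_succ, mul_assoc, mul_self_eq_trace_smul, hdet, one_smul, mul_sub,
          mul_one, Matrix.mul_smul, ← pow_succ]
      rw [h1, Matrix.trace_sub, Matrix.trace_smul, ih.1, ih.2, ht, smul_eq_mul]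
      have : ε ^ (n + 1 + 1) = ε ^ n * ε ^ 2 := by ring
      rw [this, hε]
      have : ε ^ (n + 1) = ε ^ n * ε := by ring
      rw [this]
      linear_combination (4 * ε ^ n) * hε
  rw [(key n).1, mul_pow, ← pow_mul, mul_comm n 2, pow_mul, hε, one_pow]
  norm_num

theorem trace_mapGL (g : SL(2, ℤ)) :
    ((mapGL ℝ g : GL (Fin 2) ℝ) : Matrix (Fin 2) (Fin 2) ℝ).trace
      = (((g : Matrix (Fin 2) (Fin 2) ℤ).trace : ℤ) : ℝ) := by
  simp [Matrix.trace_fin_two]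

/-- Conjugation in `GL₂(ℝ)` and powers preserve the condition `trace ^ 2 = 4`. -/
theorem trace_sq_of_conj {γ δ : SL(2, ℤ)} (hγ : (γ : Matrix (Fin 2) (Fin 2) ℤ).trace ^ 2 = 4)
    (n : ℕ) (a : GL (Fin 2) ℝ) (h : a * mapGL ℝ (γ ^ n) = mapGL ℝ δ * a) :
    (δ : Matrix (Fin 2) (Fin 2) ℤ).trace ^ 2 = 4 := by
  have h1 : mapGL ℝ δ = a * mapGL ℝ (γ ^ n) * a⁻¹ := by rw [h, mul_inv_cancel_right]
  have h2 : ((mapGL ℝ δ : GL (Fin 2) ℝ) : Matrix (Fin 2) (Fin 2) ℝ).trace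
      = ((mapGL ℝ (γ ^ n) : GL (Fin 2) ℝ) : Matrix (Fin 2) (Fin 2) ℝ).trace := by
    rw [h1]
    simp only [Units.val_mul]
    rw [Matrix.trace_mul_comm, ← mul_assoc, ← Units.val_mul, inv_mul_cancel, Units.val_one,
      one_mul]
  rw [trace_mapGL, trace_mapGL] at h2
  have h3 : (δ : Matrix (Fin 2) (Fin 2) ℤ).trace = ((γ ^ n : SL(2, ℤ)) : Matrix (Fin 2) (Fin 2) ℤ).trace := by
    exact_mod_cast h2
  rw [h3, Matrix.SpecialLinearGroup.coe_pow]
  exact trace_pow_sq_eq_four _ γ.det_coe hγ n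

variable (M p : ℕ) [Fact p.Prime] (hpM : ¬ p ∣ M)

/-- The Hecke operator `T_p` on `Hom(Γ₀(M), A)`. -/
noncomputable def heckeHom (R : Type*) [Semiring R] (A : Type*) [AddCommGroup A] [Module R A] :
    (Additive (Gamma0 M) →+ A) →ₗ[R] (Additive (Gamma0 M) →+ A) :=
  (heckeFamily M p hpM).transfer R

theorem heckeHom_comp (R : Type*) [Semiring R] {A : Type*} [AddCommGroup A] [Module R A]
    (S : Type*) [Semiring S] {B : Type*} [AddCommGroup B] [Module S B] (g : A →+ B)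
    (φ : Additive (Gamma0 M) →+ A) :
    heckeHom M p hpM S B (g.comp φ) = g.comp (heckeHom M p hpM R A φ) :=
  (heckeFamily M p hpM).transferFun_comp g φ

theorem heckeHom_mem_parabolicHoms (R : Type*) [Semiring R] {A : Type*} [AddCommGroup A]
    [Module R A] {φ : Additive (Gamma0 M) →+ A}
    (hφ : φ ∈ parabolicHoms R (Gamma0 M) A) :
    heckeHom M p hpM R A φ ∈ parabolicHoms R (Gamma0 M) A := by
  rw [mem_parabolicHoms_iff] at hφ ⊢
  intro γ hγ
  refine (heckeFamily M p hpM).transferFun_vanish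
    {γ : Gamma0 M | ((γ : SL(2, ℤ)) : Matrix (Fin 2) (Fin 2) ℤ).trace ^ 2 = 4} ?_ φ hφ γ hγ
  intro γ hγ n _ i δ h
  exact trace_sq_of_conj hγ n _ h

end Fermat.Agent.GAL.Tors
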