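import Mathlib
import Fermat.Prelude.Def_CuspForm_HeckeAlgebra
import Fermat.Agent.ES.Period
import Fermat.Agent.GAL.Tors.HeckeHom

/-!
# Hecke equivariance of the period map
-/

set_option autoImplicit false

open P2MW.S_ModularForm_heckeT_slash_eq_self_of_mem_Gamma0.ModularForm.HeckeSlashInvariance
open CongruenceSubgroup Matrix.SpecialLinearGroup ModularCurve ModularCurve.Period UpperHalfPlane
open Fermat.Agent.ES
open scoped MatrixGroups ModularForm

namespace Fermat.Agent.GAL.Tors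

theorem gamma0_le_of_dvd {N M : ℕ} (h : N ∣ M) : Gamma0 M ≤ Gamma0 N := by
  intro γ hγ
  rw [Gamma0_mem, ZMod.intCast_zmod_eq_zero_iff_dvd] at hγ ⊢
  exact (Int.natCast_dvd_natCast.mpr h).trans hγ

/-- Restriction of homomorphisms from `Γ₀(N)` to `Γ₀(M)`, `N ∣ M`. -/
def resHom {N M : ℕ} (h : N ∣ M) (R : Type*) [Semiring R] (A : Type*) [AddCommGroup A]
    [Module R A] : (Additive (Gamma0 N) →+ A) →ₗ[R] (Additive (Gamma0 M) →+ A) where
  toFun φ := φ.comp (MonoidHom.toAdditive (Subgroup.inclusion (gamma0_le_of_dvd h)))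
  map_add' _ _ := rfl
  map_smul' _ _ := rfl

theorem resHom_apply {N M : ℕ} (h : N ∣ M) (R : Type*) [Semiring R] (A : Type*) [AddCommGroup A]
    [Module R A] (φ : Additive (Gamma0 N) →+ A) (γ : Gamma0 M) :
    resHom h R A φ (Additive.ofMul γ)
      = φ (Additive.ofMul (Subgroup.inclusion (gamma0_le_of_dvd h) γ)) := rfl

theorem resHom_mem_parabolicHoms {N M : ℕ} (h : N ∣ M) (R : Type*) [Semiring R] (A : Type*)
    [AddCommGroup A] [Module R A] {φ : Additive (Gamma0 N) →+ A}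
    (hφ : φ ∈ parabolicHoms R (Gamma0 N) A) :
    resHom h R A φ ∈ parabolicHoms R (Gamma0 M) A := by
  rw [mem_parabolicHoms_iff] at hφ ⊢
  intro γ hγ
  exact hφ (Subgroup.inclusion (gamma0_le_of_dvd h) γ) hγ

/-- Chain rule for the Möbius action of `GL₂(ℝ)⁺`. -/
theorem hasDerivAt_comp_smul_GL {F f : ℍ → ℂ}
    (hF : ∀ τ : ℍ, HasDerivAt (F ∘ ofComplex) (f τ) ↑τ) (g : GL (Fin 2) ℝ)
    (hg : 0 < g.val.det) (τ : ℍ) :
    HasDerivAt ((fun w : ℍ => F (g • w)) ∘ ofComplex) ((f ∣[(2 : ℤ)] g) τ) ↑τ := by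
  have h_smul : HasDerivAt (fun w ↦ ↑(g • ofComplex w) : ℂ → ℂ)
      ((g.val.det : ℂ) / denom g τ ^ 2) ↑τ :=
    (hasStrictDerivAt_smul hg τ).hasDerivAt
  have h_F : HasDerivAt (F ∘ ofComplex) (f (g • ofComplex (τ : ℂ)))
      ↑(g • ofComplex (τ : ℂ)) := hF _
  have h := h_F.comp (τ : ℂ) h_smul
  have hσ : UpperHalfPlane.σ g = .refl ℝ ℂ := by
    rw [UpperHalfPlane.σ, if_pos (by rwa [Matrix.GeneralLinearGroup.val_det_apply])]
  have e : f (g • ofComplex (τ : ℂ)) * ((g.val.det : ℂ) / denom g τ ^ 2) = (f ∣[(2 : ℤ)] g) τ := by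
    rw [ModularForm.slash_apply, hσ, ofComplex_apply, Matrix.GeneralLinearGroup.val_det_apply,
      abs_of_pos hg]
    simp [zpow_neg, div_eq_mul_inv, mul_assoc]
  rw [e] at h
  refine h.congr_of_eventuallyEq (Filter.Eventually.of_forall fun w => ?_)
  simp [Function.comp]

theorem det_heckeRep_pos (p : ℕ) (x : OnePoint (ZMod p)) : 0 < (heckeRep p x).val.det := by
  induction x using OnePoint.rec with
  | infty =>
    have := ModularForm.det_heckeDiagMatrix_pos p
    rwa [Matrix.GeneralLinearGroup.val_det_apply] at this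
  | coe j =>
    have := ModularForm.det_heckeMatrix_pos p j.val
    rwa [Matrix.GeneralLinearGroup.val_det_apply] at this

/-- If `F` is a primitive of `f`, then `∑ F ∘ α_x` is a primitive of `T_p f`. -/
theorem hasDerivAt_sum_heckeRep {F f : ℍ → ℂ}
    (hF : ∀ τ : ℍ, HasDerivAt (F ∘ ofComplex) (f τ) ↑τ) (p : ℕ) [NeZero p] (τ : ℍ) :
    HasDerivAt ((fun w : ℍ => ∑ x : OnePoint (ZMod p), F (heckeRep p x • w)) ∘ ofComplex)
      (ModularForm.heckeT 2 p f τ) ↑τ := by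
  rw [heckeT_eq_sum_onePoint, Finset.sum_apply]
  have := HasDerivAt.fun_sum (u := Finset.univ) (fun (x : OnePoint (ZMod p)) _ =>
    hasDerivAt_comp_smul_GL hF (heckeRep p x) (det_heckeRep_pos p x) τ)
  exact this

/-- **Hecke equivariance of the period map**, with a change of level. -/
theorem resHom_periodMap_heckeT {N M : ℕ} [NeZero N] (h : N ∣ M) {p : ℕ} [Fact p.Prime]
    (hp : p.Prime) (hpN : ¬ p ∣ N) (hpM : ¬ p ∣ M) (f : CuspForm (Gamma0 N) 2) :
    resHom h ℂ ℂ (periodMap N (CuspForm.heckeTLin 2 hp hpN f))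
      = heckeHom M p hpM ℂ ℂ (resHom h ℂ ℂ (periodMap N f)) := by
  have : NeZero p := ⟨hp.ne_zero⟩
  obtain ⟨F, hF⟩ := exists_hasEquivariantPrimitive N f
  refine AddMonoidHom.ext fun γ' => ?_
  obtain ⟨γ, rfl⟩ : ∃ γ : Gamma0 M, Additive.ofMul γ = γ' := ⟨γ'.toMul, rfl⟩
  have hG : ∀ τ : ℍ, HasDerivAt
      ((fun w : ℍ => ∑ x : OnePoint (ZMod p), F (heckeRep p x • w)) ∘ ofComplex)
      (CuspForm.heckeTLin 2 hp hpN f τ) ↑τ := fun τ => hasDerivAt_sum_heckeRep hF.1 p τ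
  rw [resHom_apply, periodMap_apply N _ hG _ UpperHalfPlane.I]
  have key := (heckeFamily M p hpM).sum_smul_add (X := ℍ) F (resHom h ℂ ℂ (periodMap N f))
    (fun γ x => by
      rw [resHom_apply, periodMap_apply N f hF.1 _ x]
      have : gamma0ToGL M γ • x
          = ((Subgroup.inclusion (gamma0_le_of_dvd h) γ : Gamma0 N) : SL(2, ℤ)) • x := rfl
      rw [this]; ring) γ UpperHalfPlane.I
  have e : ∀ x : OnePoint (ZMod p),
      heckeRep p x • ((Subgroup.inclusion (gamma0_le_of_dvd h) γ : Gamma0 N) : SL(2, ℤ))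
        • UpperHalfPlane.I = (heckeFamily M p hpM).α x • gamma0ToGL M γ • UpperHalfPlane.I :=
    fun _ => rfl
  simp only [e]
  rw [key]
  simp only [heckeFamily_α]
  rw [add_sub_cancel_left]
  rfl

end Fermat.Agent.GAL.Tors
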