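import Mathlib

/-!
# The maximal torsion free abelian quotient of a finitely generated group killing a set `P`
-/

set_option autoImplicit false

namespace Fermat.Agent.GAL.Tors

/-- For a finitely generated group `Γ` and a subset `P`, there is a surjection
`π : Γ → ℤ ^ r` killing `P` through which every homomorphism to a torsion free abelian group
killing `P` factors. -/
theorem exists_universal (Γ : Type*) [Group Γ] [Group.FG Γ] (P : Set Γ) :
    ∃ (r : ℕ) (π : Additive Γ →+ (Fin r → ℤ)), Function.Surjective π ∧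
      (∀ γ ∈ P, π (Additive.ofMul γ) = 0) ∧
      ∀ (A : Type) [AddCommGroup A] [IsAddTorsionFree A] (φ : Additive Γ →+ A),
        (∀ γ ∈ P, φ (Additive.ofMul γ) = 0) → ∀ γ, π γ = 0 → φ γ = 0 := by
  classical
  -- the abelianisation
  let Q₀ := Additive (Abelianization Γ)
  have hfg0 : Group.FG (Abelianization Γ) :=
    Group.fg_of_surjective (f := Abelianization.of) (QuotientGroup.mk_surjective)
  have hfg1 : AddGroup.FG Q₀ := GroupFG.iff_add_fg.mp hfg0
  have hfin0 : Module.Finite ℤ Q₀ := Module.Finite.iff_addGroup_fg.mpr hfg1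
  let a : Additive Γ →+ Q₀ := MonoidHom.toAdditive Abelianization.of
  have ha : Function.Surjective a := fun x => by
    obtain ⟨g, hg⟩ := QuotientGroup.mk_surjective (s := commutator Γ) x.toMul
    exact ⟨Additive.ofMul g, congrArg Additive.ofMul hg⟩
  -- kill `P`
  let S : Submodule ℤ Q₀ := Submodule.span ℤ ((fun γ => a (Additive.ofMul γ)) '' P)
  let Q := Q₀ ⧸ S
  let L := Q ⧸ Submodule.torsion ℤ Q
  let b := Module.finBasis ℤ L
  let q : Q₀ →ₗ[ℤ] L := (Submodule.torsion ℤ Q).mkQ ∘ₗ S.mkQ
  have hq : Function.Surjective q :=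
    (Submodule.mkQ_surjective _).comp (Submodule.mkQ_surjective _)
  refine ⟨Module.finrank ℤ L,
    (b.equivFun.toLinearMap ∘ₗ q).toAddMonoidHom.comp a, ?_, ?_, ?_⟩
  · exact (b.equivFun.surjective.comp hq).comp ha
  · intro γ hγ
    show b.equivFun ((Submodule.torsion ℤ Q).mkQ (S.mkQ (a (Additive.ofMul γ)))) = 0
    have : S.mkQ (a (Additive.ofMul γ)) = 0 := by
      rw [Submodule.mkQ_apply, Submodule.Quotient.mk_eq_zero]
      exact Submodule.subset_span ⟨γ, hγ, rfl⟩
    rw [this, map_zero, map_zero]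
  · intro A _ _ φ hφ γ hγ
    have h1 : (Submodule.torsion ℤ Q).mkQ (S.mkQ (a γ)) = 0 := by
      have : b.equivFun ((Submodule.torsion ℤ Q).mkQ (S.mkQ (a γ))) = 0 := hγ
      exact b.equivFun.map_eq_zero_iff.mp this
    rw [Submodule.mkQ_apply, Submodule.Quotient.mk_eq_zero, Submodule.mem_torsion_iff] at h1
    obtain ⟨n, hn⟩ := h1
    -- descend `φ`
    let φ₀ : Q₀ →+ A := MonoidHom.toAdditiveLeft
      (Abelianization.lift (AddMonoidHom.toMultiplicativeRight φ))
    have hφ₀ : ∀ x, φ₀ (a x) = φ x := fun x => by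
      show Multiplicative.toAdd (Abelianization.lift (AddMonoidHom.toMultiplicativeRight φ)
        (Abelianization.of x.toMul)) = φ x
      rw [Abelianization.lift_apply_of]
      rfl
    have hS : S ≤ LinearMap.ker φ₀.toIntLinearMap := by
      rw [Submodule.span_le]
      rintro _ ⟨g, hg, rfl⟩
      show φ₀ (a (Additive.ofMul g)) = 0
      rw [hφ₀, hφ g hg]
    have h2 : (n : ℤ) • a γ ∈ S := by
      have : S.mkQ ((n : ℤ) • a γ) = 0 := by
        rw [map_smul]; exact hn
      rwa [Submodule.mkQ_apply, Submodule.Quotient.mk_eq_zero] at this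
    have h3 : φ₀ ((n : ℤ) • a γ) = 0 := hS h2
    rw [map_zsmul, hφ₀] at h3
    have hn0 : (n : ℤ) ≠ 0 := nonZeroDivisors.ne_zero n.2
    exact (IsAddTorsionFree.zsmul_eq_zero_iff_right hn0).mp h3

end Fermat.Agent.GAL.Tors
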